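import Fermat.Agent.S17.Curve.Unif
import Fermat.Agent.S17.Curve.U4

/-! # S17 / D1 : the sup of `|ev_Q t|` over `L(k∞ - ∑ P_j)` is comparable with `∏ dl(P_j,Q)` -/

set_option autoImplicit false

open AlgebraicCurve ModularCurve IntermediateField

namespace Fermat.Agent.S17

open FF

variable {N : ℕ} [NeZero N]

namespace D1

theorem ev_zero (k : ℕ) (Q : Pl N) : ev N k Q 0 = 0 := by
  have h := ev_smul (k := k) Q (0 : Kb) (f := (0 : FN N)) (Submodule.zero_mem _)
  simpa using h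

theorem ev_sum {ι : Type*} (s : Finset ι) (k : ℕ) (Q : Pl N) (a : ι → Kb) (f : ι → FN N)
    (hf : ∀ i, f i ∈ Lk N k) :
    ev N k Q (∑ i ∈ s, a i • f i) = ∑ i ∈ s, a i * ev N k Q (f i) := by
  classical
  induction s using Finset.induction_on with
  | empty => simpa using ev_zero k Q
  | insert i s hi ih =>
    rw [Finset.sum_insert hi, Finset.sum_insert hi,
      ev_add Q (Submodule.smul_mem _ _ (hf i))
        (Submodule.sum_mem _ fun j _ => Submodule.smul_mem _ _ (hf j)), ev_smul Q _ (hf i), ih]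

/-- membership and evaluation of a product of `d` sections of level `μ` and a section of level `k0`. -/
theorem prod_mul (μ k0 : ℕ) (Q : Pl N) {b : FN N} (hb : b ∈ Lk N k0) :
    ∀ (d : ℕ) (g : Fin d → FN N), (∀ j, g j ∈ Lk N μ) →
      (∏ j, g j) * b ∈ Lk N (d * μ + k0) ∧
      ev N (d * μ + k0) Q ((∏ j, g j) * b) = (∏ j, ev N μ Q (g j)) * ev N k0 Q b := by
  intro d
  induction d with
  | zero =>
    intro g _
    simp only [Finset.univ_eq_empty, Finset.prod_empty, one_mul, Nat.zero_mul, Nat.zero_add]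
    exact ⟨hb, trivial⟩
  | succ d ih =>
    intro g hg
    obtain ⟨h1, h2⟩ := ih (fun j => g j.succ) (fun j => hg _)
    have e : (d + 1) * μ + k0 = μ + (d * μ + k0) := by ring
    rw [Fin.prod_univ_succ, Fin.prod_univ_succ, mul_assoc, e]
    refine ⟨mul_mem_Lk (hg 0) h1, ?_⟩
    rw [ev_mul Q (hg 0) h1, h2, mul_assoc]

theorem ptn_nonneg (v : PlQ) (k : ℕ) (Q : Pl N) : 0 ≤ ptn N v k Q := supn_nonneg _ _

theorem ptn_pow_mul_le (k0 : ℕ) (d : ℕ) : ∃ c : CF, ∀ v, ∀ Q : Pl N,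
    ptn N v (mu0 N) Q ^ d * ptn N v k0 Q ≤ c v * ptn N v (d * mu0 N + k0) Q := by
  induction d with
  | zero =>
    refine ⟨1, fun v Q => ?_⟩
    simp
  | succ d ih =>
    obtain ⟨c, hc⟩ := ih
    obtain ⟨c', hc'⟩ := U0_ptn_mul_le (N := N) (mu0 N) (d * mu0 N + k0)
    refine ⟨c * c', fun v Q => ?_⟩
    have e : (d + 1) * mu0 N + k0 = mu0 N + (d * mu0 N + k0) := by ring
    rw [e, pow_succ']
    calc ptn N v (mu0 N) Q * ptn N v (mu0 N) Q ^ d * ptn N v k0 Q
        = ptn N v (mu0 N) Q * (ptn N v (mu0 N) Q ^ d * ptn N v k0 Q) := by ring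
      _ ≤ ptn N v (mu0 N) Q * (c v * ptn N v (d * mu0 N + k0) Q) :=
          mul_le_mul_of_nonneg_left (hc v Q) (ptn_nonneg _ _ _)
      _ = c v * (ptn N v (mu0 N) Q * ptn N v (d * mu0 N + k0) Q) := by ring
      _ ≤ c v * (c' v * ptn N v (mu0 N + (d * mu0 N + k0)) Q) :=
          mul_le_mul_of_nonneg_left (hc' v Q) (c.pos v).le
      _ = (c * c') v * ptn N v (mu0 N + (d * mu0 N + k0)) Q := by
          rw [CF.mul_apply]; ring

theorem ptn_le_pow_mul {k0 : ℕ} (hk0 : rc Kb (FN N) + mu0 N ≤ k0) (d : ℕ) : ∃ c : CF, ∀ v, ∀ Q : Pl N,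
    ptn N v (d * mu0 N + k0) Q ≤ c v * (ptn N v (mu0 N) Q ^ d * ptn N v k0 Q) := by
  induction d with
  | zero =>
    refine ⟨1, fun v Q => ?_⟩
    simp
  | succ d ih =>
    obtain ⟨c, hc⟩ := ih
    have hmu := rc_add_two_le_mu0 (N := N)
    obtain ⟨c', hc'⟩ := U0_ptn_le_mul (N := N) (k := mu0 N) (k' := d * mu0 N + k0)
      (by omega) (by push_cast; nlinarith [Nat.zero_le (d * mu0 N)])
    refine ⟨c * c', fun v Q => ?_⟩
    have e : (d + 1) * mu0 N + k0 = mu0 N + (d * mu0 N + k0) := by ring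
    rw [e, pow_succ']
    calc ptn N v (mu0 N + (d * mu0 N + k0)) Q
        ≤ c' v * (ptn N v (mu0 N) Q * ptn N v (d * mu0 N + k0) Q) := hc' v Q
      _ ≤ c' v * (ptn N v (mu0 N) Q * (c v * (ptn N v (mu0 N) Q ^ d * ptn N v k0 Q))) :=
          mul_le_mul_of_nonneg_left (mul_le_mul_of_nonneg_left (hc v Q) (ptn_nonneg _ _ _))
            (c'.pos v).le
      _ = (c * c') v * (ptn N v (mu0 N) Q * ptn N v (mu0 N) Q ^ d * ptn N v k0 Q) := by
          rw [CF.mul_apply]; ring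

theorem fam_mem_ev (d k0 : ℕ) (P : Fin d → Pl N) (Q : Pl N) (γ : Gam N d k0) :
    fam d k0 P γ ∈ Lk N (d * mu0 N + k0) ∧
    ev N (d * mu0 N + k0) Q (fam d k0 P γ) =
      (∏ j, ev N (mu0 N) Q (sec N (P j) (γ.1 j))) * pt N k0 Q γ.2 :=
  prod_mul (mu0 N) k0 Q (bas N k0 γ.2).2 d _ (fun _ => secx_mem _ _)

theorem absv_ev_sec_le (v : PlQ) (P Q : Pl N) (ik) :
    absv v (ev N (mu0 N) Q (sec N P ik)) ≤ dl N v P Q * ptn N v (mu0 N) P * ptn N v (mu0 N) Q := by
  rw [← supn_ev_sec]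
  exact absv_le_supn v (fun ik => ev N (mu0 N) Q (sec N P ik)) ik

end D1

open D1

/-- D1, upper bound (U4, `supn_ev_sec`, `ev_mul`, `U0_ptn_mul_le` iterated). -/
theorem D1_le (d : ℕ) {k0 : ℕ} (hk0 : rc Kb (FN N) + mu0 N ≤ k0) : ∃ c : CF, ∀ v, ∀ P : Fin d → Pl N,
    ∀ Q : Pl N, ∀ t ∈ LSp (koo N (d * mu0 N + k0) - tdiv P),
      absv v (ev N (d * mu0 N + k0) Q t) ≤
        c v * (nrm N v (d * mu0 N + k0) t * ptn N v (d * mu0 N + k0) Q * ∏ j, dl N v (P j) Q) := by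
  classical
  obtain ⟨c1, h1⟩ := U4 (N := N) d hk0
  obtain ⟨c2, h2⟩ := ptn_pow_mul_le (N := N) k0 d
  refine ⟨CF.ofNat (Fintype.card (Gam N d k0)) * (c1 * c2), fun v P Q t ht => ?_⟩
  obtain ⟨a, hta, ha⟩ := h1 v P t ht
  set k := d * mu0 N + k0 with hk
  have hdl : 0 ≤ ∏ j, dl N v (P j) Q := Finset.prod_nonneg fun j _ => dl_nonneg v _ _
  have hpp : 0 ≤ ∏ j, ptn N v (mu0 N) (P j) := Finset.prod_nonneg fun j _ => ptn_nonneg _ _ _
  -- bound of each term
  set r : ℝ := supn v a * ((∏ j, dl N v (P j) Q) * (∏ j, ptn N v (mu0 N) (P j)) *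
    (ptn N v (mu0 N) Q ^ d * ptn N v k0 Q)) with hr
  have hr0 : 0 ≤ r := by
    rw [hr]
    exact mul_nonneg (supn_nonneg _ _) (mul_nonneg (mul_nonneg hdl hpp)
      (mul_nonneg (pow_nonneg (ptn_nonneg _ _ _) _) (ptn_nonneg _ _ _)))
  have hterm : ∀ γ ∈ (Finset.univ : Finset (Gam N d k0)),
      absv v (a γ * ev N k Q (fam d k0 P γ)) ≤ r := by
    intro γ _
    rw [(fam_mem_ev d k0 P Q γ).2, map_mul, map_mul, map_prod, hr]
    apply mul_le_mul (absv_le_supn v a γ) _ (mul_nonneg (Finset.prod_nonneg fun j _ =>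
      (absv v).nonneg _) ((absv v).nonneg _)) (supn_nonneg _ _)
    have e1 : ∏ j, absv v (ev N (mu0 N) Q (sec N (P j) (γ.1 j))) ≤
        ∏ j, (dl N v (P j) Q * ptn N v (mu0 N) (P j) * ptn N v (mu0 N) Q) :=
      Finset.prod_le_prod (fun j _ => (absv v).nonneg _) (fun j _ => absv_ev_sec_le v _ _ _)
    have e2 : ∏ j : Fin d, (dl N v (P j) Q * ptn N v (mu0 N) (P j) * ptn N v (mu0 N) Q) =
        (∏ j, dl N v (P j) Q) * (∏ j, ptn N v (mu0 N) (P j)) * ptn N v (mu0 N) Q ^ d := by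
      rw [Finset.prod_mul_distrib, Finset.prod_mul_distrib, Finset.prod_const, Finset.card_univ,
        Fintype.card_fin]
    have e3 : absv v (pt N k0 Q γ.2) ≤ ptn N v k0 Q := absv_le_supn v _ _
    calc (∏ j, absv v (ev N (mu0 N) Q (sec N (P j) (γ.1 j)))) * absv v (pt N k0 Q γ.2)
        ≤ ((∏ j, dl N v (P j) Q) * (∏ j, ptn N v (mu0 N) (P j)) * ptn N v (mu0 N) Q ^ d) *
            ptn N v k0 Q := by
          rw [← e2]
          exact mul_le_mul e1 e3 ((absv v).nonneg _) (Finset.prod_nonneg fun j _ =>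
            mul_nonneg (mul_nonneg (dl_nonneg v _ _) (ptn_nonneg _ _ _)) (ptn_nonneg _ _ _))
      _ = _ := by ring
  have hsum : ev N k Q t = ∑ γ, a γ * ev N k Q (fam d k0 P γ) := by
    conv_lhs => rw [hta]
    exact ev_sum Finset.univ k Q a _ (fun γ => (fam_mem_ev d k0 P Q γ).1)
  rw [hsum]
  refine (absv_sum_le v Finset.univ _ hr0 hterm).trans ?_
  have hkap : kap v (Finset.univ : Finset (Gam N d k0)).card =
      (CF.ofNat (Fintype.card (Gam N d k0))) v := rfl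
  rw [hkap, CF.mul_apply, CF.mul_apply, mul_assoc]
  apply mul_le_mul_of_nonneg_left _ (CF.pos _ v).le
  have hn : 0 ≤ nrm N v k t := supn_nonneg _ _
  calc r = (supn v a * ∏ j, ptn N v (mu0 N) (P j)) * (ptn N v (mu0 N) Q ^ d * ptn N v k0 Q) *
        ∏ j, dl N v (P j) Q := by rw [hr]; ring
    _ ≤ (c1 v * nrm N v k t) * (c2 v * ptn N v k Q) * ∏ j, dl N v (P j) Q := by
        apply mul_le_mul_of_nonneg_right _ hdl
        exact mul_le_mul ha (h2 v Q) (mul_nonneg (pow_nonneg (ptn_nonneg _ _ _) _)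
          (ptn_nonneg _ _ _)) (mul_nonneg (c1.pos v).le hn)
    _ = c1 v * c2 v * (nrm N v k t * ptn N v k Q * ∏ j, dl N v (P j) Q) := by ring

/-- D1, lower bound (`t` = product of the maximising `sec (P j) ik` and the maximising `bas k0 i`; `U0_fam`, `U0_ptn_le_mul` iterated). -/
theorem D1_ge (d : ℕ) {k0 : ℕ} (hk0 : rc Kb (FN N) + mu0 N ≤ k0) : ∃ c : CF, ∀ v, ∀ P : Fin d → Pl N,
    ∀ Q : Pl N, ∃ t ∈ LSp (koo N (d * mu0 N + k0) - tdiv P), t ≠ 0 ∧
      nrm N v (d * mu0 N + k0) t * ptn N v (d * mu0 N + k0) Q * ∏ j, dl N v (P j) Q ≤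
        c v * absv v (ev N (d * mu0 N + k0) Q t) := by
  classical
  obtain ⟨c1, h1⟩ := U0_fam (N := N) d k0
  obtain ⟨c2, h2⟩ := ptn_le_pow_mul (N := N) hk0 d
  have hmu := rc_add_two_le_mu0 (N := N)
  have hrc := rc_nonneg (K := Kb) (F := FN N)
  refine ⟨c1 * c2, fun v P Q => ?_⟩
  set k := d * mu0 N + k0 with hk
  by_cases hz : ∃ j, dl N v (P j) Q = 0
  · -- degenerate case: any nonzero section
    obtain ⟨j, hj⟩ := hz
    obtain ⟨f, hf, hf0, -⟩ := exists_mem_LSp_ord_eq (K := Kb) (F := FN N)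
      (D := koo N k - tdiv P) (by
        rw [map_sub, degree_koo, degree_tdiv, hk]
        push_cast
        have : (d : ℤ) ≤ d * mu0 N := by
          have h2 : (1 : ℤ) ≤ mu0 N := by omega
          nlinarith [Int.natCast_nonneg d]
        omega) ∅
    refine ⟨f, hf, hf0, ?_⟩
    rw [Finset.prod_eq_zero (Finset.mem_univ j) hj, mul_zero]
    exact mul_nonneg (CF.pos _ v).le ((absv v).nonneg _)
  · push Not at hz
    have hpQ : 0 < ptn N v (mu0 N) Q := ptn_pos (by omega) v Q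
    have hpQ0 : 0 < ptn N v k0 Q := ptn_pos (by omega) v Q
    have hne1 : Nonempty (Fin (mk N (mu0 N)) × Fin (mk N (mu0 N))) := by
      by_contra hcon
      rw [not_nonempty_iff] at hcon
      have : IsEmpty (Fin (mk N (mu0 N))) := by
        by_contra h'
        rw [not_isEmpty_iff] at h'
        obtain ⟨i⟩ := h'
        exact hcon.false (i, i)
      have h0 : pt N (mu0 N) Q = 0 := Subsingleton.elim _ _
      have : ptn N v (mu0 N) Q = 0 := (supn_eq_zero_iff v _).2 h0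
      linarith
    have hne2 : Nonempty (Fin (mk N k0)) := by
      by_contra hcon
      rw [not_nonempty_iff] at hcon
      have h0 : pt N k0 Q = 0 := Subsingleton.elim _ _
      have : ptn N v k0 Q = 0 := (supn_eq_zero_iff v _).2 h0
      linarith
    choose ik hik using fun j => exists_absv_eq_supn v (fun ik => ev N (mu0 N) Q (sec N (P j) ik))
    obtain ⟨i0, hi0⟩ := exists_absv_eq_supn v (pt N k0 Q)
    set γ : Gam N d k0 := (ik, i0) with hγ
    have hev : absv v (ev N k Q (fam d k0 P γ)) =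
        (∏ j, dl N v (P j) Q) * (∏ j, ptn N v (mu0 N) (P j)) *
          (ptn N v (mu0 N) Q ^ d * ptn N v k0 Q) := by
      rw [(fam_mem_ev d k0 P Q γ).2, map_mul, map_prod]
      have : ∀ j, absv v (ev N (mu0 N) Q (sec N (P j) (γ.1 j))) =
          dl N v (P j) Q * ptn N v (mu0 N) (P j) * ptn N v (mu0 N) Q := by
        intro j
        rw [← supn_ev_sec]
        exact hik j
      rw [Finset.prod_congr rfl (fun j _ => this j), Finset.prod_mul_distrib,
        Finset.prod_mul_distrib, Finset.prod_const, Finset.card_univ, Fintype.card_fin]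
      have h3 : absv v (pt N k0 Q γ.2) = ptn N v k0 Q := hi0
      rw [h3]
      ring
    have hdlpos : 0 < ∏ j, dl N v (P j) Q :=
      Finset.prod_pos fun j _ => lt_of_le_of_ne (dl_nonneg v _ _) (hz j).symm
    have hpppos : 0 < ∏ j, ptn N v (mu0 N) (P j) :=
      Finset.prod_pos fun j _ => ptn_pos (by omega) v _
    refine ⟨fam d k0 P γ, ?_, ?_, ?_⟩
    · rw [← span_fam d hk0 P]
      exact Submodule.subset_span ⟨γ, rfl⟩
    · intro h0
      rw [h0, ev_zero, map_zero] at hev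
      have : 0 < (∏ j, dl N v (P j) Q) * (∏ j, ptn N v (mu0 N) (P j)) *
          (ptn N v (mu0 N) Q ^ d * ptn N v k0 Q) := by positivity
      linarith
    · rw [hev, CF.mul_apply]
      calc nrm N v k (fam d k0 P γ) * ptn N v k Q * ∏ j, dl N v (P j) Q
          ≤ (c1 v * ∏ j, ptn N v (mu0 N) (P j)) *
              (c2 v * (ptn N v (mu0 N) Q ^ d * ptn N v k0 Q)) * ∏ j, dl N v (P j) Q := by
            apply mul_le_mul_of_nonneg_right _ hdlpos.le
            exact mul_le_mul (h1 v P γ) (h2 v Q) (ptn_nonneg _ _ _)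
              (mul_nonneg (c1.pos v).le hpppos.le)
        _ = _ := by ring

end Fermat.Agent.S17
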