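import Fermat.Agent.S17.D.Pairing

/-! # S17 / D6 : the formula `q(x) = (E₊.E₋) - hh_n(E₊) - hh_n(E₋) + O(1)` -/

set_option autoImplicit false
set_option linter.unusedSectionVars false

open AlgebraicCurve ModularCurve IntermediateField

namespace Fermat.Agent.S17

open FF

variable {N : ℕ} [NeZero N]

namespace D6aux

theorem rc_le {n : ℕ} (hn : n0 N ≤ n) : rc Kb (FN N) + 1 ≤ (n : ℤ) := by
  have h1 : rc Kb (FN N) ≤ ((rc Kb (FN N)).toNat : ℤ) := Int.self_le_toNat _
  have h2 : ((n0 N : ℕ) : ℤ) ≤ n := by exact_mod_cast hn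
  unfold n0 at h2
  push_cast at h2
  omega

theorem divf_one : divf (K := Kb) (1 : FN N) = 0 := by
  ext v
  simp

theorem div0_one (n : ℕ) : div0 N n 1 = koo N n := by
  rw [div0, divf_one, zero_add]

theorem div0_nonneg {n : ℕ} {ψ : FN N} (hψ : ψ ∈ Lk N n) (h0 : ψ ≠ 0) : 0 ≤ div0 N n ψ := by
  intro v
  rcases (mem_LSp.mp hψ) with h | h
  · exact absurd h h0
  · simpa [div0] using h v

theorem degree_div0 (n : ℕ) (ψ : FN N) : Divisor.degree (div0 N n ψ) = n := by
  rw [div0, map_add, degree_divf, degree_koo, zero_add]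

theorem isRatD_add {D E : Dv N} (hD : IsRatD N D) (hE : IsRatD N E) : IsRatD N (D + E) := by
  intro σ
  rw [smul_add, hD σ, hE σ]

theorem isRatD_div0 (n : ℕ) {ψ : FN N} (hψ : IsRatF N ψ) : IsRatD N (div0 N n ψ) :=
  isRatD_add (isRatD_divf hψ) (koo_isRat N n)

theorem isRatF_one : IsRatF N (1 : FN N) := by
  intro σ
  exact smul_one _

theorem koo_nonneg (n : ℕ) : 0 ≤ koo N n := by
  intro v
  by_cases h : v = oo N
  · subst h
    rw [koo_apply_oo]
    simp
  · rw [koo_apply_of_ne n h]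
    simp

theorem cls_neg (D : Dv N) (h : Divisor.degree D = 0) (h' : Divisor.degree (-D) = 0) :
    cls N (-D) h' = - cls N D h := rfl

end D6aux

open D6aux in
/-- **D6.** (exact statement of the stub `D6`) -/
theorem D6aux.main {n : ℕ} (hn : n0 N ≤ n) : ∃ C : ℝ, ∀ (x : MW N) (Ep Em : Dv N), 0 ≤ Ep → 0 ≤ Em →
    IsRatD N Ep →
    IsRatD N Em → Divisor.degree Ep = n → Divisor.degree Em = n → Disjoint Ep.support Em.support →
    Ep (oo N) = 0 → Em (oo N) = 0 →
    (∃ h, cls N (Ep - koo N n) h = (x : JZero N)) → (∃ h, cls N (Em - koo N n) h = -(x : JZero N)) →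
      |qh x - (gpair N Ep Em - hdiv N n Ep - hdiv N n Em)| ≤ C := by
  classical
  have hk := rc_le (N := N) hn
  obtain ⟨C1, hC1⟩ := qh_eq (N := N) n
  obtain ⟨C2, hC2⟩ := D3 (N := N) hk n
  obtain ⟨C3, hC3⟩ := D3' (N := N) hk hk
  refine ⟨C1 + 3 * C2 + C3, ?_⟩
  intro x Ep Em hEp0 hEm0 hEpR hEmR hEpd hEmd hdisj hEpoo hEmoo hxp hxm
  -- the auxiliary section
  obtain ⟨ψ, hψL, hψ0, hψR, hψT⟩ := exists_rat_mem_LSp_ord_eq (N := N) (koo_isRat N n)
    (by rw [degree_koo]; exact hk) (insert (oo N) Ep.support)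
  have hψL' : ψ ∈ Lk N n := hψL
  set O' : Dv N := div0 N n ψ with hO'
  have hO'0 : 0 ≤ O' := div0_nonneg hψL' hψ0
  have hO'R : IsRatD N O' := isRatD_div0 n hψR
  have hO'd : Divisor.degree O' = n := degree_div0 n ψ
  have hO'oo : O' (oo N) = 0 := by
    have := hψT (oo N) (Finset.mem_insert_self _ _)
    simp only [hO', div0, Finsupp.add_apply, divf_apply, this]
    ring
  have hO'Ep : ∀ P ∈ Ep.support, O' P = 0 := by
    intro P hP
    have := hψT P (Finset.mem_insert_of_mem hP)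
    simp only [hO', div0, Finsupp.add_apply, divf_apply, this]
    ring
  -- the two representatives of `x`
  have hrep1 : Rep n (x : JZero N) Ep (koo N n) :=
    ⟨hEp0, koo_nonneg n, hEpR, koo_isRat N n, by rw [hEpd], hxp⟩
  have hdeg2 : Divisor.degree (O' - Em) = 0 := by rw [map_sub, hO'd, hEmd, sub_self]
  have hrep2 : Rep n (x : JZero N) O' Em := by
    refine ⟨hO'0, hEm0, hO'R, hEmR, by rw [hO'd], hdeg2, ?_⟩
    obtain ⟨h, hx⟩ := hxm
    have h' : Divisor.degree (-(Em - koo N n)) = 0 := by rw [map_neg, h, neg_zero]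
    have e1 : cls N (-(Em - koo N n)) h' = (x : JZero N) := by
      rw [cls_neg _ h, hx, neg_neg]
    rw [← e1, cls_eq_cls_iff, LinEq, isPrincipal_iff]
    refine ⟨ψ, hψ0, ?_⟩
    rw [hO', div0]
    abel
  have hdisj2 : Disjoint (Ep + koo N n).support (O' + Em).support := by
    rw [Finset.disjoint_left]
    intro P hP
    rw [Finsupp.mem_support_iff, Finsupp.add_apply] at hP
    rw [Finsupp.notMem_support_iff, Finsupp.add_apply]
    by_cases hPoo : P = oo N
    · subst hPoo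
      rw [hO'oo, hEmoo, add_zero]
    · rw [koo_apply_of_ne n hPoo, add_zero] at hP
      have hP' : P ∈ Ep.support := Finsupp.mem_support_iff.mpr hP
      rw [hO'Ep P hP', Finsupp.notMem_support_iff.mp (Finset.disjoint_left.mp hdisj hP'), add_zero]
  have a1 := hC1 x Ep (koo N n) O' Em hrep1 hrep2 hdisj2
  -- D3 for `(ψ, Ep)`
  have a2 := hC2 ψ hψL' hψ0 hψR Ep hEp0 hEpR (by rw [hEpd]) (by
    rw [Finset.disjoint_right]
    intro P hP
    exact Finsupp.notMem_support_iff.mpr (hO'Ep P hP))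
  -- D3 for `(1, Em)`
  have a3 := hC2 1 (one_mem_Lk n) one_ne_zero isRatF_one Em hEm0 hEmR (by rw [hEmd]) (by
    rw [div0_one, Finset.disjoint_left]
    intro P hP
    by_cases hPoo : P = oo N
    · subst hPoo
      exact Finsupp.notMem_support_iff.mpr hEmoo
    · exact absurd (koo_apply_of_ne n hPoo) (Finsupp.mem_support_iff.mp hP))
  -- D3 for `(1, O')`
  have a4 := hC2 1 (one_mem_Lk n) one_ne_zero isRatF_one O' hO'0 hO'R (by rw [hO'd]) (by
    rw [div0_one, Finset.disjoint_left]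
    intro P hP
    by_cases hPoo : P = oo N
    · subst hPoo
      exact Finsupp.notMem_support_iff.mpr hO'oo
    · exact absurd (koo_apply_of_ne n hPoo) (Finsupp.mem_support_iff.mp hP))
  -- D3' for `ψ`
  have a5 := hC3 ψ hψL' hψ0 hψR
  rw [div0_one] at a3 a4
  rw [← hO'] at a2 a5
  rw [hEpd] at a2
  rw [hEmd] at a3
  rw [hO'd] at a4
  rw [gpair_sub_left, gpair_sub_right, gpair_sub_right, gpair_comm Ep O'] at a1
  rw [abs_le] at a1 a2 a3 a4 a5 ⊢
  push_cast at a2 a3 a4
  constructor <;> linarith [a1.1, a1.2, a2.1, a2.2, a3.1, a3.2, a4.1, a4.2, a5.1, a5.2]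

/-- **D6.** -/
theorem D6 {n : ℕ} (hn : n0 N ≤ n) : ∃ C : ℝ, ∀ (x : MW N) (Ep Em : Dv N), 0 ≤ Ep → 0 ≤ Em → IsRatD N Ep →
    IsRatD N Em → Divisor.degree Ep = n → Divisor.degree Em = n → Disjoint Ep.support Em.support →
    Ep (oo N) = 0 → Em (oo N) = 0 →
    (∃ h, cls N (Ep - koo N n) h = (x : JZero N)) → (∃ h, cls N (Em - koo N n) h = -(x : JZero N)) →
      |qh x - (gpair N Ep Em - hdiv N n Ep - hdiv N n Em)| ≤ C := by
  exact D6aux.main hn

end Fermat.Agent.S17
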