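import Fermat.Agent.S17.D.GlobalA

/-! # S17 / D3 : the global pairing of rational divisors -/

set_option autoImplicit false

open AlgebraicCurve ModularCurve IntermediateField

namespace Fermat.Agent.S17

open FF

variable {N : ℕ} [NeZero N]

namespace D3aux

open GlobalA

theorem div0_nonneg {k : ℕ} {φ : FN N} (hφ : φ ∈ Lk N k) (h0 : φ ≠ 0) : 0 ≤ div0 N k φ :=
  (mem_LSp_iff_divf h0).1 hφ

theorem degree_div0 (k : ℕ) (φ : FN N) : Divisor.degree (div0 N k φ) = k := by
  rw [div0, map_add, degree_divf, degree_koo, zero_add]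

theorem ev_ne_zero_of_notMem {k : ℕ} {φ : FN N} (hφ : φ ∈ Lk N k) (h0 : φ ≠ 0) {Q : Pl N}
    (hQ : Q ∉ (div0 N k φ).support) : ev N k Q φ ≠ 0 := by
  intro h
  rw [ev_eq_zero_iff Q hφ, mem_LSp_iff_divf h0] at h
  have h1 := h Q
  rw [Finsupp.notMem_support_iff] at hQ
  have h2 : (divf φ + (koo N k - pdiv Q) : Dv N) Q = div0 N k φ Q - 1 := by
    simp only [div0, Finsupp.coe_add, Finsupp.coe_sub, Pi.add_apply, Pi.sub_apply,
      Finsupp.single_eq_same]
    ring
  rw [h2, hQ] at h1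
  simp at h1

theorem mem_support_tdiv {d : ℕ} (P : Fin d → Pl N) (j : Fin d) : P j ∈ (tdiv P).support := by
  classical
  rw [Finsupp.mem_support_iff, tdiv, Finsupp.finsetSum_apply]
  have h1 : ∀ i ∈ Finset.univ, (0 : ℤ) ≤ (pdiv (P i)) (P j) := by
    intro i _
    rw [Finsupp.single_apply]
    split_ifs <;> norm_num
  have h2 : (pdiv (P j)) (P j) ≤ ∑ i, (pdiv (P i)) (P j) :=
    Finset.single_le_sum h1 (Finset.mem_univ j)
  rw [Finsupp.single_eq_same] at h2
  omega

theorem lpair_pdiv (v : PlQ) (P : Pl N) (E : Dv N) :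
    lpair N v (pdiv P) E = E.sum fun Q b => (b : ℝ) * (- Real.log (dl N v P Q)) := by
  unfold lpair
  rw [Finsupp.sum_single_index]
  · simp
  · simp [Finsupp.sum]

theorem lpair_finset_sum (v : PlQ) {ι : Type*} (s : Finset ι) (D : ι → Dv N) (E : Dv N) :
    lpair N v (∑ j ∈ s, D j) E = ∑ j ∈ s, lpair N v (D j) E := by
  classical
  induction s using Finset.induction_on with
  | empty => simp [lpair]
  | insert a s ha ih => rw [Finset.sum_insert ha, Finset.sum_insert ha, lpair_add_left, ih]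

theorem lpair_tdiv (v : PlQ) {d : ℕ} (P : Fin d → Pl N) (E : Dv N) :
    lpair N v (tdiv P) E = E.sum fun Q b => (b : ℝ) * (- ∑ j, Real.log (dl N v (P j) Q)) := by
  rw [tdiv, lpair_finset_sum]
  simp only [lpair_pdiv, Finsupp.sum]
  rw [Finset.sum_comm]
  refine Finset.sum_congr rfl fun Q _ => ?_
  rw [← Finset.mul_sum, Finset.sum_neg_distrib]

/-- weighted sums of terms bounded on the support -/
theorem abs_sum_le' {E : Dv N} (hE : 0 ≤ E) {e : ℕ} (he : Divisor.degree E ≤ e) (t : Pl N → ℝ) {B : ℝ}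
    (hB : 0 ≤ B) (ht : ∀ P ∈ E.support, |t P| ≤ B) : |E.sum fun P a => (a : ℝ) * t P| ≤ e * B := by
  classical
  have h1 := abs_sum_le hE he (fun P => if P ∈ E.support then t P else 0) hB (by
    intro P
    split_ifs with h
    · exact ht P h
    · simpa using hB)
  have h2 : (E.sum fun P a => (a : ℝ) * t P)
      = E.sum fun P a => (a : ℝ) * (if P ∈ E.support then t P else 0) := by
    unfold Finsupp.sum
    refine Finset.sum_congr rfl fun P hP => ?_
    simp only [if_pos hP]
  rw [h2]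
  exact h1

theorem abs_log_sub_log_le {x y c : ℝ} (hx : 0 < x) (hy : 0 < y) (hc : 0 < c) (h1 : x ≤ c * y)
    (h2 : y ≤ c * x) : |Real.log x - Real.log y| ≤ Real.log c := by
  have e1 : Real.log x ≤ Real.log c + Real.log y := by
    rw [← Real.log_mul hc.ne' hy.ne']
    exact Real.log_le_log hx h1
  have e2 : Real.log y ≤ Real.log c + Real.log x := by
    rw [← Real.log_mul hc.ne' hx.ne']
    exact Real.log_le_log hy h2
  rw [abs_le]
  constructor <;> linarith

theorem nrm_pos (v : PlQ) {k : ℕ} {φ : FN N} (hφ : φ ∈ Lk N k) (h0 : φ ≠ 0) : 0 < nrm N v k φ :=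
  supn_pos v (fun h => h0 ((crd_eq_zero_iff hφ).1 h))

theorem finite_support_log_nrm {k : ℕ} {φ : FN N} (hφ : φ ∈ Lk N k) (h0 : φ ≠ 0) :
    (Function.support fun v : PlQ => Real.log (nrm N v k φ)).Finite := by
  refine (finite_supn_ne_one (t := crd N k φ) (fun h => h0 ((crd_eq_zero_iff hφ).1 h))).subset ?_
  intro v hv h1
  apply hv
  simp only [nrm, h1, Real.log_one]

theorem finite_support_log_ev {k : ℕ} {φ : FN N} (E : Dv N)
    (hdisj : ∀ Q ∈ E.support, ev N k Q φ ≠ 0) :
    (Function.support fun v : PlQ =>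
      E.sum fun Q a => (a : ℝ) * Real.log (absv v (ev N k Q φ))).Finite := by
  refine finite_support_finsupp_sum E (fun v Q a => (a : ℝ) * Real.log (absv v (ev N k Q φ))) ?_
  intro Q hQ
  refine finite_support_mul_const _ ?_
  refine (finite_absv_ne_one (hdisj Q hQ)).subset ?_
  intro v hv h1
  apply hv
  simp only [h1, Real.log_one]

end D3aux

open D3aux GlobalA

/-- **D3.** -/
theorem D3 {k : ℕ} (hk : rc Kb (FN N) + 1 ≤ k) (e : ℕ) : ∃ C : ℝ, ∀ φ ∈ Lk N k, φ ≠ 0 → IsRatF N φ →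
    ∀ E : Dv N, 0 ≤ E → IsRatD N E → Divisor.degree E ≤ e → Disjoint (div0 N k φ).support E.support →
      |gpair N (div0 N k φ) E - (Divisor.degree E * hsec N k φ + hdiv N k E)| ≤ C := by
  obtain ⟨c, hc⟩ := D2 (N := N) hk
  refine ⟨(c.npow e).tot, fun φ hφ h0 hrat E hE hEr he hdisj => ?_⟩
  obtain ⟨P, hP⟩ := exists_tdiv_eq (div0_nonneg hφ h0) (degree_div0 k φ)
  have hev : ∀ Q ∈ E.support, ev N k Q φ ≠ 0 := fun Q hQ =>
    ev_ne_zero_of_notMem hφ h0 (fun h => (Finset.disjoint_left.1 hdisj h) hQ)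
  have hdl : ∀ v, ∀ Q ∈ E.support, ∀ j, 0 < dl N v (P j) Q := by
    intro v Q hQ j
    refine lt_of_le_of_ne (dl_nonneg v _ _) (fun h => ?_)
    have h1 := (dl_eq_zero_iff v (P j) Q).1 h.symm
    have h2 : P j ∈ (div0 N k φ).support := hP ▸ mem_support_tdiv P j
    exact (Finset.disjoint_left.1 hdisj h2) (h1 ▸ hQ)
  -- the comparison function
  set b : PlQ → ℝ := fun v => (Divisor.degree E : ℝ) * Real.log (nrm N v k φ)
    + (E.sum fun Q a => (a : ℝ) * Real.log (ptn N v k Q))
    - (E.sum fun Q a => (a : ℝ) * Real.log (absv v (ev N k Q φ))) with hb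
  have hs1 : (Function.support fun v : PlQ =>
      (Divisor.degree E : ℝ) * Real.log (nrm N v k φ)).Finite :=
    finite_support_mul_const _ (finite_support_log_nrm hφ h0)
  have hs2 := finite_support_hdiv hk E
  have hs3 := finite_support_log_ev (k := k) (φ := φ) E hev
  have hs12 : (Function.support fun v : PlQ => (Divisor.degree E : ℝ) * Real.log (nrm N v k φ)
      + (E.sum fun Q a => (a : ℝ) * Real.log (ptn N v k Q))).Finite :=
    (hs1.union hs2).subset (Function.support_add _ _)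
  have hbfin : (Function.support b).Finite :=
    (hs12.union hs3).subset (Function.support_sub _ _)
  have hbsum : ∑ᶠ v, b v = Divisor.degree E * hsec N k φ + hdiv N k E := by
    rw [hb, finsum_sub_distrib hs12 hs3, finsum_add_distrib hs1 hs2,
      sum_log_ev_eq_zero hφ hrat hEr hE hev, sub_zero,
      ← mul_finsum]
    rfl
  rw [← hbsum, gpair]
  refine abs_finsum_sub_le (c.npow e) _ b (finite_support_lpair _ _) hbfin (fun v => ?_)
  have hlog : Real.log ((c.npow e) v) = e * Real.log (c v) := by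
    change Real.log (c v ^ e) = _
    rw [Real.log_pow]
  rw [hlog, ← hP, lpair_tdiv, hb]
  have hrew : (E.sum fun Q b => (b : ℝ) * (- ∑ j, Real.log (dl N v (P j) Q)))
      - ((Divisor.degree E : ℝ) * Real.log (nrm N v k φ)
        + (E.sum fun Q a => (a : ℝ) * Real.log (ptn N v k Q))
        - (E.sum fun Q a => (a : ℝ) * Real.log (absv v (ev N k Q φ))))
      = E.sum fun Q a => (a : ℝ) * (Real.log (absv v (ev N k Q φ))
          - (Real.log (nrm N v k φ) + Real.log (ptn N v k Q)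
            + ∑ j, Real.log (dl N v (P j) Q))) := by
    rw [degree_eq_sum_real]
    simp only [Finsupp.sum, Finset.sum_mul]
    rw [← Finset.sum_add_distrib, ← Finset.sum_sub_distrib, ← Finset.sum_sub_distrib]
    refine Finset.sum_congr rfl fun Q _ => ?_
    ring
  rw [hrew]
  refine abs_sum_le' hE he _ (Real.log_nonneg (c.one_le v)) (fun Q hQ => ?_)
  obtain ⟨h1, h2⟩ := hc v φ hφ h0 P hP Q
  have hn := nrm_pos v hφ h0
  have hp := ptn_pos hk v Q
  have hprod : 0 < ∏ j, dl N v (P j) Q := Finset.prod_pos fun j _ => hdl v Q hQ j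
  have hx : 0 < absv v (ev N k Q φ) := (absv v).pos (hev Q hQ)
  have hy : 0 < nrm N v k φ * ptn N v k Q * ∏ j, dl N v (P j) Q := mul_pos (mul_pos hn hp) hprod
  have h3 := abs_log_sub_log_le hx hy (c.pos v) h1 h2
  rwa [Real.log_mul (mul_pos hn hp).ne' hprod.ne', Real.log_mul hn.ne' hp.ne',
    Real.log_prod (fun j _ => (hdl v Q hQ j).ne')] at h3

namespace D3aux

theorem isRatD_div0' (k : ℕ) {φ : FN N} (hφ : IsRatF N φ) : IsRatD N (div0 N k φ) := by
  intro σ
  rw [div0, smul_add, isRatD_divf hφ σ, koo_isRat N k σ]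

theorem card_support_div0_le {k : ℕ} {φ : FN N} (hφ : φ ∈ Lk N k) (h0 : φ ≠ 0) :
    (div0 N k φ).support.card ≤ k := by
  classical
  obtain ⟨P, hP⟩ := exists_tdiv_eq (div0_nonneg hφ h0) (degree_div0 k φ)
  have h1 : (tdiv P).support ⊆ Finset.univ.image P := by
    rw [tdiv]
    refine Finsupp.support_finsetSum.trans ?_
    intro Q hQ
    obtain ⟨j, -, hj⟩ := Finset.mem_biUnion.1 hQ
    have := Finsupp.support_single_subset hj
    rw [Finset.mem_singleton] at this
    exact Finset.mem_image.2 ⟨j, Finset.mem_univ j, this.symm⟩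
  rw [← hP]
  calc (tdiv P).support.card ≤ (Finset.univ.image P).card := Finset.card_le_card h1
    _ ≤ (Finset.univ : Finset (Fin k)).card := Finset.card_image_le
    _ = k := by simp

/-- a family of rational sections of `L_k'` with pairwise disjoint zero divisors -/
theorem exists_family {k' : ℕ} (hk' : rc Kb (FN N) + 1 ≤ k') (n : ℕ) : ∃ ψ : Fin n → FN N,
    (∀ i, ψ i ∈ Lk N k' ∧ ψ i ≠ 0 ∧ IsRatF N (ψ i)) ∧
    ∀ i j, i ≠ j → Disjoint (div0 N k' (ψ i)).support (div0 N k' (ψ j)).support := by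
  classical
  induction n with
  | zero => exact ⟨Fin.elim0, fun i => i.elim0, fun i => i.elim0⟩
  | succ n ih =>
    obtain ⟨ψ, h1, h2⟩ := ih
    obtain ⟨f, hf, hf0, hfr, hfT⟩ := exists_rat_mem_LSp_ord_eq (koo_isRat N k')
      (by rw [degree_koo]; exact hk') (Finset.univ.biUnion fun i => (div0 N k' (ψ i)).support)
    have hdis : ∀ j, Disjoint (div0 N k' f).support (div0 N k' (ψ j)).support := by
      intro j
      rw [Finset.disjoint_right]
      intro Q hQ
      have h3 := hfT Q (Finset.mem_biUnion.2 ⟨j, Finset.mem_univ j, hQ⟩)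
      rw [Finsupp.notMem_support_iff, div0, Finsupp.add_apply, divf_apply, h3, neg_add_cancel]
    refine ⟨Fin.cons f ψ, ?_, ?_⟩
    · intro i
      refine Fin.cases ?_ (fun i => ?_) i
      · simpa using ⟨hf, hf0, hfr⟩
      · simpa using h1 i
    · intro i j
      refine Fin.cases ?_ (fun i => ?_) i <;> refine Fin.cases ?_ (fun j => ?_) j
      · intro h; exact absurd rfl h
      · intro _; simpa using hdis j
      · intro _; simpa using (hdis i).symm
      · intro h
        simpa using h2 i j (fun e => h (by rw [e]))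

/-- pigeonhole -/
theorem exists_disjoint {α : Type*} [DecidableEq α] {k : ℕ} (O : Fin (k + 1) → Finset α)
    (hO : ∀ i j, i ≠ j → Disjoint (O i) (O j)) (S : Finset α) (hS : S.card ≤ k) :
    ∃ i, Disjoint S (O i) := by
  by_contra hcon
  push Not at hcon
  have h1 : ∀ i, ∃ a, a ∈ S ∧ a ∈ O i := fun i => Finset.not_disjoint_iff.1 (hcon i)
  choose a ha1 ha2 using h1
  have hinj : Function.Injective a := by
    intro i j hij
    by_contra hne
    exact (Finset.disjoint_left.1 (hO i j hne) (ha2 i)) (hij ▸ ha2 j)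
  have h2 : (Finset.univ : Finset (Fin (k + 1))).card ≤ S.card :=
    Finset.card_le_card_of_injOn a (fun i _ => ha1 i) hinj.injOn
  simp at h2
  omega

end D3aux

/-- **D3'** ("Mahler measure = height"): apply D3 twice with one of `k+1` fixed pairwise disjoint rational divisors `div0 k' ψ_i`. -/
theorem D3' {k k' : ℕ} (hk : rc Kb (FN N) + 1 ≤ k) (hk' : rc Kb (FN N) + 1 ≤ k') : ∃ C : ℝ,
    ∀ φ ∈ Lk N k, φ ≠ 0 → IsRatF N φ → |hdiv N k' (div0 N k φ) - k' * hsec N k φ| ≤ C := by
  classical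
  obtain ⟨ψ, hψ, hdis⟩ := exists_family (N := N) hk' (k + 1)
  obtain ⟨C₁, hC₁⟩ := D3 (N := N) hk k'
  obtain ⟨C₂, hC₂⟩ := D3 (N := N) hk' k
  refine ⟨C₁ + C₂ + ∑ i, |hdiv N k (div0 N k' (ψ i)) - k * hsec N k' (ψ i)|,
    fun φ hφ h0 hrat => ?_⟩
  obtain ⟨i, hi⟩ := exists_disjoint (fun i => (div0 N k' (ψ i)).support) hdis
    (div0 N k φ).support (card_support_div0_le hφ h0)
  obtain ⟨hψ1, hψ0, hψr⟩ := hψ i
  have e1 := hC₁ φ hφ h0 hrat (div0 N k' (ψ i)) (div0_nonneg hψ1 hψ0) (isRatD_div0' k' hψr)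
    (degree_div0 k' (ψ i)).le hi
  have e2 := hC₂ (ψ i) hψ1 hψ0 hψr (div0 N k φ) (div0_nonneg hφ h0) (isRatD_div0' k hrat)
    (degree_div0 k φ).le hi.symm
  rw [degree_div0] at e1 e2
  rw [gpair_comm] at e2
  have e3 : |hdiv N k (div0 N k' (ψ i)) - k * hsec N k' (ψ i)|
      ≤ ∑ i, |hdiv N k (div0 N k' (ψ i)) - k * hsec N k' (ψ i)| :=
    Finset.single_le_sum (f := fun i => |hdiv N k (div0 N k' (ψ i)) - k * hsec N k' (ψ i)|)
      (fun _ _ => abs_nonneg _) (Finset.mem_univ i)
  push_cast at e1 e2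
  rw [abs_le] at e1 e2 e3 ⊢
  constructor <;> linarith [e1.1, e1.2, e2.1, e2.2, e3.1, e3.2]

end Fermat.Agent.S17
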