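import Fermat.Agent.S17.Curve.Basic

/-! # S17 / A9, A10 : rational representatives and the rational moving lemma -/

set_option autoImplicit false

open AlgebraicCurve ModularCurve IntermediateField

namespace Fermat.Agent.S17

open FF

variable {N : ℕ} [NeZero N]

/-- `L(D)` has a rational basis if `D` is rational. -/
theorem exists_rat_basis {D : Dv N} (hD : IsRatD N D) :
    ∃ b : Module.Basis (Fin (ell D)) Kb (LSp D), ∀ i, IsRatF N (b i : FN N) := by
  obtain ⟨b, hb⟩ := exists_fixed_basis (L := Kb) (N := N) Set.univ (LSp D) (by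
    intro σ _ f hf
    have := gal_smul_mem_LSp σ hf
    rwa [hD σ] at this)
  exact ⟨b, fun i σ => hb σ (Set.mem_univ _) i⟩

omit [NeZero N] in
theorem isRatF_sum_rat_smul {n : ℕ} {b : Fin n → FN N} (hb : ∀ i, IsRatF N (b i)) (a : Fin n → ℚ) :
    IsRatF N (∑ i, (a i : Kb) • b i) := by
  intro σ
  rw [Finset.smul_sum]
  refine Finset.sum_congr rfl fun i _ => ?_
  rw [gal_smul_smul, hb i σ]
  simp

/-- the `ℚ`-subspace of rational coordinate vectors whose combination lies in `W` -/
def ratPre {n : ℕ} (b : Fin n → FN N) (W : Submodule Kb (FN N)) : Submodule ℚ (Fin n → ℚ) where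
  carrier := {a | ∑ i, (a i : Kb) • b i ∈ W}
  add_mem' := by
    intro a a' h h'
    simp only [Set.mem_ofPred_eq, Pi.add_apply, Rat.cast_add, add_smul, Finset.sum_add_distrib]
    exact W.add_mem h h'
  zero_mem' := by simp
  smul_mem' := by
    intro c a h
    simp only [Set.mem_ofPred_eq, Pi.smul_apply, smul_eq_mul, Rat.cast_mul, mul_smul,
      ← Finset.smul_sum]
    exact W.smul_mem _ h

/-- rational avoidance of finitely many subspaces not containing `L(D)` -/
theorem exists_rat_mem_notMem {D : Dv N} (hD : IsRatD N D) (s : Finset (Submodule Kb (FN N)))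
    (h : ∀ W ∈ s, ¬ LSp D ≤ W) : ∃ f ∈ LSp D, IsRatF N f ∧ ∀ W ∈ s, f ∉ W := by
  classical
  obtain ⟨b, hb⟩ := exists_rat_basis hD
  have htop : (⊤ : Submodule ℚ (Fin (ell D) → ℚ)) ∉
      s.image (fun W => ratPre (fun i => (b i : FN N)) W) := by
    intro hmem
    obtain ⟨W, hW, hWtop⟩ := Finset.mem_image.mp hmem
    apply h W hW
    have hbi : ∀ i, (b i : FN N) ∈ W := by
      intro i
      have : (Pi.single i 1 : Fin (ell D) → ℚ) ∈ ratPre (fun i => (b i : FN N)) W := by
        rw [hWtop]; trivial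
      have h2 : ∑ j, (((Pi.single i 1 : Fin (ell D) → ℚ) j : ℚ) : Kb) • (b j : FN N) ∈ W := this
      rw [Finset.sum_eq_single i] at h2
      · simpa using h2
      · intro j _ hj
        simp [hj]
      · simp
    have hspan : LSp D = Submodule.span Kb (Set.range fun i => (b i : FN N)) := by
      have := congrArg (Submodule.map (LSp D).subtype) b.span_eq
      rw [Submodule.map_span, Submodule.map_subtype_top, ← Set.range_comp] at this
      exact this.symm
    rw [hspan, Submodule.span_le]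
    rintro _ ⟨i, rfl⟩
    exact hbi i
  have hne := Subspace.biUnion_ne_univ_of_top_notMem htop
  rw [Ne, Set.eq_univ_iff_forall] at hne
  push Not at hne
  obtain ⟨a, ha⟩ := hne
  refine ⟨∑ i, (a i : Kb) • (b i : FN N), ?_, isRatF_sum_rat_smul hb a, fun W hW hxW => ha ?_⟩
  · exact Submodule.sum_mem _ fun i _ => Submodule.smul_mem _ _ (b i).2
  · simp only [Set.mem_iUnion]
    exact ⟨ratPre (fun i => (b i : FN N)) W, Finset.mem_image_of_mem _ hW, hxW⟩

set_option synthInstance.maxHeartbeats 200000 in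
/-- **Rational avoidance.** (`ℚ`-span of a rational basis is not a finite union of proper `ℚ`-subspaces.) -/
theorem exists_rat_mem_LSp_ord_eq {D : Dv N} (hD : IsRatD N D) (h : rc Kb (FN N) + 1 ≤ Divisor.degree D)
    (T : Finset (Pl N)) : ∃ f ∈ LSp D, f ≠ 0 ∧ IsRatF N f ∧ ∀ P ∈ T, P.ord f = - D P := by
  classical
  obtain ⟨f, hfD, hrat, hf⟩ := exists_rat_mem_notMem hD
    (insert ⊥ (T.image fun v => LSp (D - pdiv v))) (by
      intro W hW hle
      rcases Finset.mem_insert.mp hW with rfl | hW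
      · have h1 := ell_sub_pdiv h (oo N)
        have h2 : LSp D = ⊥ := le_bot_iff.mp hle
        have h3 : ell D = 0 := by rw [ell, h2, finrank_bot]
        omega
      · obtain ⟨v, -, rfl⟩ := Finset.mem_image.mp hW
        have h1 := ell_sub_pdiv h v
        have h2 : ell D ≤ ell (D - pdiv v) := Submodule.finrank_mono hle
        omega)
  have hf0 : f ≠ 0 := by
    intro h0
    exact hf ⊥ (Finset.mem_insert_self _ _) (by simp [h0])
  refine ⟨f, hfD, hf0, hrat, fun v hv => ?_⟩
  have hnot := hf _ (Finset.mem_insert_of_mem (Finset.mem_image_of_mem _ hv))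
  have hD := (mem_LSp.mp hfD).resolve_left hf0
  rw [mem_LSp] at hnot
  push Not at hnot
  obtain ⟨w, hw⟩ := hnot.2
  by_cases hwv : w = v
  · subst hwv
    have := hD w
    simp only [Finsupp.coe_sub, Pi.sub_apply, Finsupp.single_eq_same] at hw
    omega
  · have := hD w
    rw [Finsupp.sub_apply, Finsupp.single_eq_of_ne hwv] at hw
    omega

theorem gal_smul_divf (σ : GQ) (f : FN N) :
    gal Kb N σ • divf (K := Kb) f = divf (gal Kb N σ • f) := by
  ext w
  rw [SemilinearAut.divisor_smul_apply, divf_apply, divf_apply]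
  have h := SemilinearAut.ord_smul (gal Kb N σ) ((gal Kb N σ)⁻¹ • w) f
  rw [smul_inv_smul] at h
  exact h.symm

theorem isRatD_divf {f : FN N} (hf : IsRatF N f) : IsRatD N (divf f) := by
  intro σ
  rw [gal_smul_divf, hf σ]

/-- a rational principal divisor is the divisor of a rational function -/
theorem exists_rat_of_isPrincipal {D : Dv N} (hD : IsRatD N D) (h : Divisor.IsPrincipal D) :
    ∃ f : FN N, f ≠ 0 ∧ IsRatF N f ∧ D = divf f := by
  obtain ⟨f₀, hf₀, rfl⟩ := isPrincipal_iff.mp h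
  have hD' : IsRatD N (- divf f₀) := by
    intro σ
    rw [smul_neg, hD σ]
  obtain ⟨b, hb⟩ := exists_rat_basis hD'
  have hell : ell (- divf (K := Kb) f₀) = 1 := by
    have := ell_add_divf (K := Kb) (0 : Dv N) (inv_ne_zero hf₀)
    rw [zero_add, divf_inv, ell_zero] at this
    exact this
  have hpos : 0 < ell (- divf (K := Kb) f₀) := by omega
  have hb0 : (b ⟨0, hpos⟩ : FN N) ≠ 0 := by
    intro h0
    exact b.ne_zero ⟨0, hpos⟩ (Subtype.ext h0)
  refine ⟨b ⟨0, hpos⟩, hb0, hb _, ?_⟩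
  have := eq_neg_divf_of_mem_LSp (K := Kb) (D := - divf f₀)
    (by rw [map_neg, degree_divf, neg_zero]) hb0 (b ⟨0, hpos⟩).2
  exact neg_injective this

theorem gal_smul_cls (σ : GQ) (D : Dv N) (hD : Divisor.degree D = 0) :
    σ • cls N D hD = cls N (gal Kb N σ • D) (by rw [SemilinearAut.degree_smul, hD]) := by
  rfl

theorem cls_eq_cls_iff {D D' : Dv N} (hD : Divisor.degree D = 0) (hD' : Divisor.degree D' = 0) :
    cls N D hD = cls N D' hD' ↔ LinEq D D' := by
  rw [cls, cls, Pic0.mk, Pic0.mk, QuotientAddGroup.eq_iff_sub_mem, AddSubgroup.mem_addSubgroupOf]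
  rfl

theorem cls_mem_MW {D : Dv N} (hD : Divisor.degree D = 0) (h : IsRatD N D) : cls N D hD ∈ MW N := by
  intro σ
  rw [gal_smul_cls]
  congr 1
  exact h σ

namespace MovingB

theorem smul_nonneg' (σ : GQ) {E : Dv N} (hE : 0 ≤ E) : 0 ≤ gal Kb N σ • E := by
  intro v
  rw [SemilinearAut.divisor_smul_apply]
  exact hE _

theorem smul_pdiv_oo (σ : GQ) (d : ℕ) :
    gal Kb N σ • (d • pdiv (oo N)) = d • pdiv (oo N) := by
  rw [smul_comm, SemilinearAut.smul_single, gal_smul_infP]

theorem isRatD_add {D E : Dv N} (hD : IsRatD N D) (hE : IsRatD N E) : IsRatD N (D + E) := by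
  intro σ
  rw [smul_add, hD σ, hE σ]

theorem isRatD_sub {D E : Dv N} (hD : IsRatD N D) (hE : IsRatD N E) : IsRatD N (D - E) := by
  intro σ
  rw [smul_sub, hD σ, hE σ]

theorem koo_eq (n : ℕ) : koo N n = n • pdiv (oo N) := by
  rw [koo, natCast_zsmul]

theorem cls_sub {D E : Dv N} (hD : Divisor.degree D = 0) (hE : Divisor.degree E = 0)
    (h : Divisor.degree (D - E) = 0) : cls N (D - E) h = cls N D hD - cls N E hE := rfl

theorem exists_cls (x : JZero N) : ∃ (D : Dv N) (hD : Divisor.degree D = 0), cls N D hD = x := by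
  obtain ⟨⟨D, hD⟩, rfl⟩ := Pic0.mk_surjective x
  exact ⟨D, hD, rfl⟩

end MovingB

open MovingB

/-- A9: a Galois-fixed class is represented by a rational divisor (uniqueness of the minimal representative `FF.exists_minRep`). -/
theorem exists_rat_rep {x : JZero N} (hx : x ∈ MW N) :
    ∃ (D : Dv N) (hD : Divisor.degree D = 0), IsRatD N D ∧ cls N D hD = x := by
  obtain ⟨D₀, hD₀, rfl⟩ := exists_cls x
  obtain ⟨d, E, hE0, hEd, -, -, hlin, -, huniq⟩ := exists_minRep (oo N) D₀ hD₀
  have hdeg : Divisor.degree (E - d • pdiv (oo N)) = 0 := by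
    rw [map_sub, hEd, map_nsmul, LBasic.degree_pdiv]
    simp
  have hcls : cls N (E - d • pdiv (oo N)) hdeg = cls N D₀ hD₀ := (cls_eq_cls_iff hdeg hD₀).mpr hlin
  have hrat : IsRatD N E := by
    intro σ
    have h1 : σ • cls N D₀ hD₀ = cls N D₀ hD₀ := hx σ
    rw [← hcls, gal_smul_cls] at h1
    have h2 := (cls_eq_cls_iff _ hdeg).mp h1
    have h3 : gal Kb N σ • (E - d • pdiv (oo N)) = gal Kb N σ • E - d • pdiv (oo N) := by
      rw [smul_sub, smul_pdiv_oo]
    have hdeg' : Divisor.degree (gal Kb N σ • E - d • pdiv (oo N)) = 0 := by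
      rw [← h3, SemilinearAut.degree_smul, hdeg]
    have h4 : cls N (gal Kb N σ • E - d • pdiv (oo N)) hdeg' = cls N D₀ hD₀ := by
      rw [← hcls, ← h1]
      congr 1
      exact h3.symm
    have h5 := (cls_eq_cls_iff hdeg' hD₀).mp h4
    exact (huniq d (gal Kb N σ • E) (smul_nonneg' σ hE0)
      (by rw [SemilinearAut.degree_smul, hEd]) h5).2 rfl
  refine ⟨E - d • pdiv (oo N), hdeg, ?_, hcls⟩
  refine isRatD_sub hrat ?_
  intro σ
  exact smul_pdiv_oo σ d

/-- `x` is represented by `D₁ - D₂`, `D_i` rational effective of the same degree `≤ s`. -/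
def Rep (s : ℕ) (x : JZero N) (D₁ D₂ : Dv N) : Prop :=
  0 ≤ D₁ ∧ 0 ≤ D₂ ∧ IsRatD N D₁ ∧ IsRatD N D₂ ∧ Divisor.degree D₁ ≤ s ∧
    ∃ h : Divisor.degree (D₁ - D₂) = 0, cls N (D₁ - D₂) h = x

/-- the degree used for representatives -/
noncomputable def n0 (N : ℕ) [NeZero N] : ℕ := (rc Kb (FN N)).toNat + genus Kb (FN N) + 1

/-- A10: effective rational `E ∼ x + n∞` of degree `n` avoiding `T`. -/
theorem exists_rat_effective {x : JZero N} (hx : x ∈ MW N) {n : ℕ} (hn : n0 N ≤ n) (T : Finset (Pl N)) :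
    ∃ E : Dv N, 0 ≤ E ∧ IsRatD N E ∧ Divisor.degree E = n ∧ Disjoint E.support T ∧
      ∃ h : Divisor.degree (E - koo N n) = 0, cls N (E - koo N n) h = x := by
  obtain ⟨D, hD, hDrat, rfl⟩ := exists_rat_rep hx
  have hrat : IsRatD N (D + koo N n) := isRatD_add hDrat (koo_isRat N n)
  have hdeg : Divisor.degree (D + koo N n) = n := by
    rw [map_add, hD, degree_koo, zero_add]
  have hn' : rc Kb (FN N) + 1 ≤ Divisor.degree (D + koo N n) := by
    rw [hdeg]
    have h1 : (n0 N : ℤ) ≤ n := by exact_mod_cast hn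
    have h2 : rc Kb (FN N) ≤ ((rc Kb (FN N)).toNat : ℤ) := Int.self_le_toNat _
    unfold n0 at h1
    push_cast at h1
    omega
  obtain ⟨f, hfL, hf0, hfrat, hfT⟩ := exists_rat_mem_LSp_ord_eq hrat hn' T
  have hE0 : 0 ≤ divf f + (D + koo N n) := (mem_LSp_iff_divf hf0).mp hfL
  have hsub : divf f + (D + koo N n) - koo N n = divf f + D := by abel
  have hdeg0 : Divisor.degree (divf f + (D + koo N n) - koo N n) = 0 := by
    rw [hsub, map_add, degree_divf, hD, add_zero]
  refine ⟨divf f + (D + koo N n), hE0, isRatD_add (isRatD_divf hfrat) hrat, ?_, ?_, hdeg0, ?_⟩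
  · rw [map_add, degree_divf, hdeg, zero_add]
  · rw [Finset.disjoint_left]
    intro P hP hPT
    rw [Finsupp.mem_support_iff] at hP
    apply hP
    rw [Finsupp.add_apply, divf_apply, hfT P hPT]
    omega
  · rw [cls_eq_cls_iff hdeg0 hD, LinEq, isPrincipal_iff]
    exact ⟨f, hf0, by abel⟩

/-- moving lemma for classes -/
theorem exists_rep {x : JZero N} (hx : x ∈ MW N) (T : Finset (Pl N)) :
    ∃ D₁ D₂ : Dv N, Rep (n0 N) x D₁ D₂ ∧ Disjoint (D₁ + D₂).support T := by
  classical
  obtain ⟨E₁, h10, h1r, h1d, h1T, h1, hc1⟩ := exists_rat_effective hx (le_refl (n0 N)) T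
  obtain ⟨E₂, h20, h2r, h2d, h2T, h2, hc2⟩ :=
    exists_rat_effective (zero_mem (MW N)) (le_refl (n0 N)) T
  have hdeg : Divisor.degree (E₁ - E₂) = 0 := by rw [map_sub, h1d, h2d, sub_self]
  refine ⟨E₁, E₂, ⟨h10, h20, h1r, h2r, h1d.le, hdeg, ?_⟩, ?_⟩
  · have e : E₁ - E₂ = (E₁ - koo N (n0 N)) - (E₂ - koo N (n0 N)) := by abel
    have hdeg' : Divisor.degree ((E₁ - koo N (n0 N)) - (E₂ - koo N (n0 N))) = 0 := by rw [← e, hdeg]
    have : cls N (E₁ - E₂) hdeg = cls N ((E₁ - koo N (n0 N)) - (E₂ - koo N (n0 N))) hdeg' := by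
      congr 1
    rw [this, cls_sub h1 h2, hc1, hc2, sub_zero]
  · refine Finset.disjoint_of_subset_left Finsupp.support_add ?_
    rw [Finset.disjoint_union_left]
    exact ⟨h1T, h2T⟩

end Fermat.Agent.S17
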