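import Fermat.Agent.S17.D.Local
import Fermat.Agent.S17.D.Moving

/-! # S17 / D-Global-a : API of the local / global pairing of divisors and of the height of divisors -/

set_option autoImplicit false

open AlgebraicCurve ModularCurve IntermediateField

namespace Fermat.Agent.S17

open FF

variable {N : ℕ} [NeZero N]

namespace GlobalA

/-- `-log dl_v(P,Q)` vanishes for almost all `v` (also for `P = Q`, where `dl = 0`). -/
theorem finite_support_log_dl (P Q : Pl N) :
    (Function.support fun v : PlQ => - Real.log (dl N v P Q)).Finite := by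
  rcases eq_or_ne P Q with rfl | h
  · have : (fun v : PlQ => - Real.log (dl N v P P)) = fun _ => 0 := by
      funext v
      rw [(dl_eq_zero_iff v P P).2 rfl, Real.log_zero, neg_zero]
    rw [this]
    simp
  · refine (finite_dl_ne_one h).subset ?_
    intro v hv h1
    apply hv
    simp only [h1, Real.log_one, neg_zero]

theorem finite_support_finsupp_sum {α : Type*} (D : α →₀ ℤ) (g : PlQ → α → ℤ → ℝ)
    (h : ∀ P ∈ D.support, (Function.support fun v => g v P (D P)).Finite) :
    (Function.support fun v => D.sum (g v)).Finite := by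
  classical
  refine (D.support.finite_toSet.biUnion (t := fun P => Function.support fun v => g v P (D P))
    (fun P hP => h P hP)).subset ?_
  intro v hv
  by_contra hcon
  apply hv
  simp only [Set.mem_iUnion, not_exists, Function.mem_support, not_not] at hcon
  exact Finset.sum_eq_zero fun P hP => hcon P hP

theorem finite_support_mul_const (c : ℝ) {f : PlQ → ℝ} (hf : (Function.support f).Finite) :
    (Function.support fun v => c * f v).Finite := by
  refine hf.subset ?_
  intro v hv h0
  apply hv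
  simp only [h0, mul_zero]

theorem lpair_add_left (v : PlQ) (D₁ D₂ D' : Dv N) :
    lpair N v (D₁ + D₂) D' = lpair N v D₁ D' + lpair N v D₂ D' := by
  unfold lpair
  rw [Finsupp.sum_add_index']
  · intro P
    simp [Finsupp.sum]
  · intro P a b
    simp only [Finsupp.sum, ← Finset.sum_add_distrib]
    refine Finset.sum_congr rfl fun Q _ => ?_
    push_cast
    ring

theorem lpair_neg_left (v : PlQ) (D D' : Dv N) : lpair N v (-D) D' = - lpair N v D D' := by
  have h := lpair_add_left v (-D) D D'
  have h0 : lpair N v (0 : Dv N) D' = 0 := by simp [lpair]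
  rw [neg_add_cancel, h0] at h
  linarith

/-- the local term of `hdiv` -/
theorem finite_support_hdiv {k : ℕ} (hk : rc Kb (FN N) + 1 ≤ k) (E : Dv N) :
    (Function.support fun v : PlQ => E.sum fun P a => (a : ℝ) * Real.log (ptn N v k P)).Finite := by
  refine finite_support_finsupp_sum E (fun v P a => (a : ℝ) * Real.log (ptn N v k P)) ?_
  intro P _
  refine finite_support_mul_const _ ?_
  refine (finite_ptn_ne_one hk P).subset ?_
  intro v hv h1
  apply hv
  simp only [h1, Real.log_one]

/-- degree as a real sum -/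
theorem degree_eq_sum_real (E : Dv N) : ((Divisor.degree E : ℤ) : ℝ) = E.sum fun _ a => (a : ℝ) := by
  rw [degree_eq_sum]
  simp [Finsupp.sum]

/-- weighted sums of bounded terms -/
theorem abs_sum_le {E : Dv N} (hE : 0 ≤ E) {e : ℕ} (he : Divisor.degree E ≤ e) (t : Pl N → ℝ) {B : ℝ}
    (hB : 0 ≤ B) (ht : ∀ P, |t P| ≤ B) : |E.sum fun P a => (a : ℝ) * t P| ≤ e * B := by
  have h1 : |E.sum fun P a => (a : ℝ) * t P| ≤ E.sum fun _ a => (a : ℝ) * B := by
    unfold Finsupp.sum
    refine (Finset.abs_sum_le_sum_abs _ _).trans (Finset.sum_le_sum fun P _ => ?_)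
    have hP : (0 : ℝ) ≤ (E P : ℝ) := by exact_mod_cast hE P
    rw [abs_mul, abs_of_nonneg hP]
    exact mul_le_mul_of_nonneg_left (ht P) hP
  have h2 : (E.sum fun _ a => (a : ℝ) * B) = ((Divisor.degree E : ℤ) : ℝ) * B := by
    rw [degree_eq_sum_real]
    simp only [Finsupp.sum, Finset.sum_mul]
  have h3 : ((Divisor.degree E : ℤ) : ℝ) ≤ e := by exact_mod_cast he
  rw [h2] at h1
  exact h1.trans (mul_le_mul_of_nonneg_right h3 hB)

end GlobalA

open GlobalA

theorem finite_support_lpair (D D' : Dv N) : (Function.support fun v => lpair N v D D').Finite := by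
  unfold lpair
  refine finite_support_finsupp_sum D
    (fun v P a => D'.sum fun Q b => (a : ℝ) * (b : ℝ) * (- Real.log (dl N v P Q))) ?_
  intro P _
  refine finite_support_finsupp_sum D'
    (fun v Q b => ((D P : ℤ) : ℝ) * (b : ℝ) * (- Real.log (dl N v P Q))) ?_
  intro Q _
  exact finite_support_mul_const _ (finite_support_log_dl P Q)

theorem lpair_comm (v : PlQ) (D D' : Dv N) : lpair N v D D' = lpair N v D' D := by
  unfold lpair
  rw [Finsupp.sum_comm]
  refine Finsupp.sum_congr fun Q _ => Finsupp.sum_congr fun P _ => ?_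
  rw [dl_comm v P Q]
  ring

theorem gpair_comm (D D' : Dv N) : gpair N D D' = gpair N D' D := by
  unfold gpair
  exact finsum_congr fun v => lpair_comm v D D'

theorem gpair_add_left (D₁ D₂ D' : Dv N) : gpair N (D₁ + D₂) D' = gpair N D₁ D' + gpair N D₂ D' := by
  unfold gpair
  rw [← finsum_add_distrib (finite_support_lpair D₁ D') (finite_support_lpair D₂ D')]
  exact finsum_congr fun v => lpair_add_left v D₁ D₂ D'

theorem gpair_neg_left (D D' : Dv N) : gpair N (-D) D' = - gpair N D D' := by
  unfold gpair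
  rw [← finsum_neg_distrib]
  exact finsum_congr fun v => lpair_neg_left v D D'

theorem gpair_sub_left (D₁ D₂ D' : Dv N) : gpair N (D₁ - D₂) D' = gpair N D₁ D' - gpair N D₂ D' := by
  rw [sub_eq_add_neg, gpair_add_left, gpair_neg_left, sub_eq_add_neg]

theorem gpair_add_right (D D₁ D₂ : Dv N) : gpair N D (D₁ + D₂) = gpair N D D₁ + gpair N D D₂ := by
  rw [gpair_comm, gpair_add_left, gpair_comm D₁, gpair_comm D₂]

theorem gpair_sub_right (D D₁ D₂ : Dv N) : gpair N D (D₁ - D₂) = gpair N D D₁ - gpair N D D₂ := by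
  rw [gpair_comm, gpair_sub_left, gpair_comm D₁, gpair_comm D₂]

theorem hdiv_add {k : ℕ} (hk : rc Kb (FN N) + 1 ≤ k) (E E' : Dv N) :
    hdiv N k (E + E') = hdiv N k E + hdiv N k E' := by
  unfold hdiv
  rw [← finsum_add_distrib (finite_support_hdiv hk E) (finite_support_hdiv hk E')]
  refine finsum_congr fun v => ?_
  rw [Finsupp.sum_add_index']
  · intro P
    simp
  · intro P a b
    push_cast
    ring

/-- lower bound `hdiv ≥ -C` for effective divisors of bounded degree (`one_le_ptn`) -/
theorem hdiv_ge {k : ℕ} (hk : rc Kb (FN N) + 1 ≤ k) (e : ℕ) : ∃ C : ℝ, ∀ E : Dv N, 0 ≤ E →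
    Divisor.degree E ≤ e → -C ≤ hdiv N k E := by
  obtain ⟨c, hc⟩ := one_le_ptn (N := N) hk
  refine ⟨(c.npow e).tot, fun E hE he => ?_⟩
  have key := finsum_le_add (c.npow e) (fun _ => 0)
    (fun v : PlQ => E.sum fun P a => (a : ℝ) * Real.log (ptn N v k P)) (by simp)
    (finite_support_hdiv hk E) ?_
  · rw [finsum_zero] at key
    unfold hdiv
    linarith
  · intro v
    have hlc : 0 ≤ Real.log (c v) := Real.log_nonneg (c.one_le v)
    have h1 : (E.sum fun _ a => (a : ℝ) * (- Real.log (c v))) ≤
        E.sum fun P a => (a : ℝ) * Real.log (ptn N v k P) := by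
      unfold Finsupp.sum
      refine Finset.sum_le_sum fun P _ => ?_
      have hP : (0 : ℝ) ≤ (E P : ℝ) := by exact_mod_cast hE P
      refine mul_le_mul_of_nonneg_left ?_ hP
      have h2 := hc v P
      have hpos := ptn_pos hk v P
      have h3 := Real.log_le_log one_pos h2
      rw [Real.log_one, Real.log_mul (c.pos v).ne' hpos.ne'] at h3
      linarith
    have h2 : (E.sum fun _ a => (a : ℝ) * (- Real.log (c v))) =
        ((Divisor.degree E : ℤ) : ℝ) * (- Real.log (c v)) := by
      rw [degree_eq_sum_real]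
      simp only [Finsupp.sum, Finset.sum_mul]
    have h3 : ((Divisor.degree E : ℤ) : ℝ) ≤ e := by exact_mod_cast he
    have h4 : Real.log ((c.npow e) v) = e * Real.log (c v) := by
      change Real.log (c v ^ e) = _
      rw [Real.log_pow]
    rw [h4]
    rw [h2] at h1
    nlinarith

/-- comparison of levels (`ptn_pow_le`) -/
theorem hdiv_level {k k' : ℕ} (hk : rc Kb (FN N) + 1 ≤ k) (hk' : rc Kb (FN N) + 1 ≤ k') (e : ℕ) :
    ∃ C : ℝ, ∀ E : Dv N, 0 ≤ E → Divisor.degree E ≤ e → |k' * hdiv N k E - k * hdiv N k' E| ≤ C := by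
  obtain ⟨c, hc⟩ := ptn_pow_le (N := N) hk hk'
  obtain ⟨c', hc'⟩ := ptn_pow_le (N := N) hk' hk
  refine ⟨((c * c').npow e).tot, fun E hE he => ?_⟩
  unfold hdiv
  rw [← smul_eq_mul, ← smul_eq_mul, smul_finsum, smul_finsum]
  refine abs_finsum_sub_le _ _ _ ?_ ?_ ?_
  · exact finite_support_mul_const _ (finite_support_hdiv hk E)
  · exact finite_support_mul_const _ (finite_support_hdiv hk' E)
  · intro v
    have h4 : Real.log (((c * c').npow e) v) = e * Real.log ((c * c') v) := by
      change Real.log ((c * c') v ^ e) = _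
      rw [Real.log_pow]
    rw [h4]
    have e1 : ((k' : ℝ) • E.sum fun P a => (a : ℝ) * Real.log (ptn N v k P)) -
        ((k : ℝ) • E.sum fun P a => (a : ℝ) * Real.log (ptn N v k' P)) =
        E.sum fun P a => (a : ℝ) * (k' * Real.log (ptn N v k P) - k * Real.log (ptn N v k' P)) := by
      simp only [Finsupp.sum, smul_eq_mul, Finset.mul_sum, ← Finset.sum_sub_distrib]
      refine Finset.sum_congr rfl fun P _ => ?_
      ring
    rw [e1]
    refine abs_sum_le hE he _ (Real.log_nonneg ((c * c').one_le v)) ?_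
    intro P
    have hp := ptn_pos hk v P
    have hp' := ptn_pos hk' v P
    have h1 := Real.log_le_log (pow_pos hp k') (hc v P)
    have h2 := Real.log_le_log (pow_pos hp' k) (hc' v P)
    rw [Real.log_pow, Real.log_mul (c.pos v).ne' (pow_pos hp' k).ne', Real.log_pow] at h1
    rw [Real.log_pow, Real.log_mul (c'.pos v).ne' (pow_pos hp k').ne', Real.log_pow] at h2
    rw [CF.mul_apply, Real.log_mul (c.pos v).ne' (c'.pos v).ne']
    have hl := Real.log_nonneg (c.one_le v)
    have hl' := Real.log_nonneg (c'.one_le v)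
    rw [abs_le]
    constructor <;> linarith

/-- product formula: `∏_Q ev_Q(φ)^{E(Q)}` is a nonzero rational number. -/
theorem sum_log_ev_eq_zero {k : ℕ} {φ : FN N} (hφ : φ ∈ Lk N k) (hrat : IsRatF N φ) {E : Dv N}
    (hE : IsRatD N E) (hE0 : 0 ≤ E) (hdisj : ∀ Q ∈ E.support, ev N k Q φ ≠ 0) :
    ∑ᶠ v : PlQ, E.sum (fun Q a => (a : ℝ) * Real.log (absv v (ev N k Q φ))) = 0 := by
  classical
  set x : Kb := E.prod fun Q a => ev N k Q φ ^ a.toNat with hx
  have hx0 : x ≠ 0 := by
    rw [hx, Finsupp.prod]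
    exact Finset.prod_ne_zero_iff.2 fun Q hQ => pow_ne_zero _ (hdisj Q hQ)
  have hfix : ∀ σ : GQ, σ x = x := by
    intro σ
    have h1 : σ x = E.prod fun Q a => ev N k (gal Kb N σ • Q) φ ^ a.toNat := by
      rw [hx, Finsupp.prod, map_prod]
      refine Finset.prod_congr rfl fun Q _ => ?_
      rw [map_pow, ← ev_gal σ Q hφ, hrat σ]
    have h2 : x = (gal Kb N σ • E).prod fun Q a => ev N k Q φ ^ a.toNat := by rw [hE σ]
    rw [h1, h2, SemilinearAut.divisor_smul_def, Finsupp.prod_mapDomain_index_inj
      (MulAction.injective (gal Kb N σ))]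
  obtain ⟨r, hr⟩ := exists_rat_of_fixed hfix
  have hr0 : r ≠ 0 := by
    rintro rfl
    apply hx0
    rw [← hr]
    simp
  rw [← sum_log_absv_rat hr0]
  refine finsum_congr fun v => ?_
  rw [hr, hx, Finsupp.prod, map_prod, Real.log_prod]
  · refine Finset.sum_congr rfl fun Q _ => ?_
    rw [map_pow, Real.log_pow]
    congr 1
    have : ((E Q).toNat : ℤ) = E Q := Int.toNat_of_nonneg (hE0 Q)
    exact_mod_cast this.symm
  · intro Q hQ
    exact (absv v).ne_zero (pow_ne_zero _ (hdisj Q hQ))

end Fermat.Agent.S17
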