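import Fermat.Agent.S17.D.D1

/-! # S17 / D2 : the local decomposition theorem (D1 is in `D/D1.lean`) -/

set_option autoImplicit false

open AlgebraicCurve ModularCurve IntermediateField

namespace Fermat.Agent.S17

open FF

variable {N : ℕ} [NeZero N]

/-! ### auxiliary lemmas -/

/-- a fixed nonzero vector has norm `≍ 1` -/
theorem DLocal.exists_CF_supn {ι : Type*} [Fintype ι] {t : ι → Kb} (ht : t ≠ 0) :
    ∃ c : CF, ∀ v, supn v t ≤ c v ∧ 1 ≤ c v * supn v t := by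
  refine ⟨⟨fun v => max (supn v t) (supn v t)⁻¹, fun v => ?_, ?_⟩, fun v => ⟨le_max_left _ _, ?_⟩⟩
  · have hpos := supn_pos v ht
    rcases le_total 1 (supn v t) with h | h
    · exact le_max_of_le_left h
    · exact le_max_of_le_right ((one_le_inv₀ hpos).2 h)
  · refine (finite_supn_ne_one ht).subset ?_
    intro v hv h
    exact hv (by simp [h])
  · have hpos := supn_pos v ht
    calc (1:ℝ) = (supn v t)⁻¹ * supn v t := (inv_mul_cancel₀ hpos.ne').symm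
      _ ≤ max (supn v t) (supn v t)⁻¹ * supn v t :=
        mul_le_mul_of_nonneg_right (le_max_right _ _) hpos.le

theorem DLocal.le_mul_left {a : CF} (b : CF) {v : PlQ} {x y : ℝ} (hy : 0 ≤ y) (h : x ≤ a v * y) :
    x ≤ (a * b) v * y := by
  refine h.trans (mul_le_mul_of_nonneg_right ?_ hy)
  rw [CF.mul_apply]
  exact le_mul_of_one_le_right (a.pos v).le (b.one_le v)

theorem DLocal.le_mul_right (a : CF) {b : CF} {v : PlQ} {x y : ℝ} (hy : 0 ≤ y) (h : x ≤ b v * y) :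
    x ≤ (a * b) v * y := by
  refine h.trans (mul_le_mul_of_nonneg_right ?_ hy)
  rw [CF.mul_apply]
  exact le_mul_of_one_le_left (b.pos v).le (a.one_le v)

theorem DLocal.crd_bas (k : ℕ) (i : Fin (mk N k)) :
    crd N k (bas N k i : FN N) = Pi.single i 1 := by
  classical
  have h := crd_sum (N := N) k (Pi.single i 1)
  rwa [Finset.sum_eq_single i (fun j _ hj => by rw [Pi.single_eq_of_ne hj, zero_smul])
    (fun h => absurd (Finset.mem_univ i) h), Pi.single_eq_same, one_smul] at h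

theorem DLocal.nrm_bas_le (v : PlQ) (k : ℕ) (i : Fin (mk N k)) :
    nrm N v k (bas N k i : FN N) ≤ 1 := by
  classical
  rw [nrm, DLocal.crd_bas, supn_le_iff v _ zero_le_one]
  intro j
  rcases eq_or_ne j i with rfl | hj
  · rw [Pi.single_eq_same, map_one]
  · rw [Pi.single_eq_of_ne hj, map_zero]
    exact zero_le_one

theorem DLocal.nrm_nonneg (v : PlQ) (k : ℕ) (f : FN N) : 0 ≤ nrm N v k f := supn_nonneg _ _

theorem DLocal.ptn_nonneg (v : PlQ) (k : ℕ) (Q : Pl N) : 0 ≤ ptn N v k Q := supn_nonneg _ _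

theorem DLocal.nrm_pos (v : PlQ) {k : ℕ} {f : FN N} (hf : f ∈ Lk N k) (hf0 : f ≠ 0) :
    0 < nrm N v k f :=
  supn_pos v (fun h => hf0 ((crd_eq_zero_iff hf).1 h))

theorem DLocal.prod_dl_nonneg (v : PlQ) {d : ℕ} (P : Fin d → Pl N) (Q : Pl N) :
    0 ≤ ∏ j, dl N v (P j) Q :=
  Finset.prod_nonneg fun j _ => dl_nonneg v (P j) Q

/-- `φ L_{k'} = L((k+k')∞ - div0 φ)` -/
theorem DLocal.mul_mem_iff {k : ℕ} (k' : ℕ) {φ : FN N} (hφ : φ ≠ 0) {P : Fin k → Pl N}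
    (hP : tdiv P = div0 N k φ) (u : FN N) :
    φ * u ∈ LSp (koo N (k + k') - tdiv P) ↔ u ∈ Lk N k' := by
  have h : koo N k' = (koo N (k + k') - tdiv P) + divf φ := by
    rw [hP, div0, koo_add]; abel
  rw [Lk, h, mem_LSp_add_divf hφ, mul_comm]

/-- there is a basis vector of `L_k` maximising `|ev_Q|`. -/
theorem DLocal.exists_bas_max {k : ℕ} (hk : rc Kb (FN N) + 1 ≤ k) (v : PlQ) (Q : Pl N) :
    ∃ i : Fin (mk N k), absv v (ev N k Q (bas N k i : FN N)) = ptn N v k Q := by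
  have hne : Nonempty (Fin (mk N k)) := by
    by_contra hcon
    rw [not_nonempty_iff] at hcon
    exact pt_ne_zero hk Q (funext fun i => hcon.elim i)
  exact exists_absv_eq_supn v (pt N k Q)

/-- the auxiliary levels -/
theorem DLocal.exists_levels {k : ℕ} (hk : rc Kb (FN N) + 1 ≤ k) :
    ∃ k0 k' : ℕ, rc Kb (FN N) + mu0 N ≤ k0 ∧ k * mu0 N + k0 = k + k' ∧ rc Kb (FN N) + k ≤ k' ∧
      rc Kb (FN N) + 1 ≤ k' := by
  have hrc : 0 ≤ rc Kb (FN N) := rc_nonneg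
  have hmu : rc Kb (FN N) + 2 ≤ (mu0 N : ℤ) := rc_add_two_le_mu0
  have h2 : 2 ≤ mu0 N := by omega
  have h3 : k * 2 ≤ k * mu0 N := Nat.mul_le_mul_left _ h2
  refine ⟨(rc Kb (FN N)).toNat + mu0 N, k * mu0 N + ((rc Kb (FN N)).toNat + mu0 N) - k, ?_, ?_, ?_, ?_⟩
  · push_cast
    rw [Int.toNat_of_nonneg hrc]
  · omega
  · omega
  · omega

theorem DLocal.D2_le {k : ℕ} (hk : rc Kb (FN N) + 1 ≤ k) : ∃ c : CF, ∀ v, ∀ φ ∈ Lk N k, φ ≠ 0 →
    ∀ P : Fin k → Pl N, tdiv P = div0 N k φ → ∀ Q : Pl N,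
      absv v (ev N k Q φ) ≤ c v * (nrm N v k φ * ptn N v k Q * ∏ j, dl N v (P j) Q) := by
  obtain ⟨k0, k', hk0, hkk, hk', hk'1⟩ := DLocal.exists_levels hk
  obtain ⟨c1, h1⟩ := D1_le (N := N) k hk0
  rw [hkk] at h1
  obtain ⟨c2, h2⟩ := U0_mul (N := N) k k'
  obtain ⟨c3, h3⟩ := U0_ptn_le_mul (N := N) hk hk'
  refine ⟨c1 * c2 * c3, fun v φ hφ hφ0 P hP Q => ?_⟩
  obtain ⟨i, hi⟩ := DLocal.exists_bas_max hk'1 v Q
  have hu : (bas N k' i : FN N) ∈ Lk N k' := (bas N k' i).2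
  have hp' : 0 < ptn N v k' Q := ptn_pos hk'1 v Q
  have hD := DLocal.prod_dl_nonneg v P Q
  have hn := DLocal.nrm_nonneg (N := N) v k φ
  have hp := DLocal.ptn_nonneg (N := N) v k Q
  have e1 := h1 v P Q _ ((DLocal.mul_mem_iff k' hφ0 hP _).2 hu)
  rw [ev_mul Q hφ hu, map_mul, hi] at e1
  have e2 : nrm N v (k + k') (φ * (bas N k' i : FN N)) ≤ c2 v * nrm N v k φ := by
    refine (h2 v φ hφ _ hu).trans (mul_le_mul_of_nonneg_left ?_ (c2.pos v).le)
    exact mul_le_of_le_one_right hn (DLocal.nrm_bas_le v k' i)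
  have e3 := h3 v Q
  refine le_of_mul_le_mul_right ?_ hp'
  calc absv v (ev N k Q φ) * ptn N v k' Q
      ≤ c1 v * (nrm N v (k + k') (φ * (bas N k' i : FN N)) * ptn N v (k + k') Q *
          ∏ j, dl N v (P j) Q) := e1
    _ ≤ c1 v * ((c2 v * nrm N v k φ) * (c3 v * (ptn N v k Q * ptn N v k' Q)) *
          ∏ j, dl N v (P j) Q) := by
        refine mul_le_mul_of_nonneg_left ?_ (c1.pos v).le
        refine mul_le_mul_of_nonneg_right ?_ hD
        exact mul_le_mul e2 e3 (DLocal.ptn_nonneg v _ Q) (mul_nonneg (c2.pos v).le hn)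
    _ = (c1 * c2 * c3) v * (nrm N v k φ * ptn N v k Q * ∏ j, dl N v (P j) Q) * ptn N v k' Q := by
        simp only [CF.mul_apply]; ring

theorem DLocal.D2_ge {k : ℕ} (hk : rc Kb (FN N) + 1 ≤ k) : ∃ c : CF, ∀ v, ∀ φ ∈ Lk N k, φ ≠ 0 →
    ∀ P : Fin k → Pl N, tdiv P = div0 N k φ → ∀ Q : Pl N,
      nrm N v k φ * ptn N v k Q * ∏ j, dl N v (P j) Q ≤ c v * absv v (ev N k Q φ) := by
  obtain ⟨k0, k', hk0, hkk, hk', hk'1⟩ := DLocal.exists_levels hk
  obtain ⟨c4, h4⟩ := D1_ge (N := N) k hk0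
  rw [hkk] at h4
  obtain ⟨c5, h5⟩ := U1 (N := N) k k'
  obtain ⟨c6, h6⟩ := U0_ptn_mul_le (N := N) k k'
  refine ⟨c4 * c5 * c6 * CF.ofNat (mk N k'), fun v φ hφ hφ0 P hP Q => ?_⟩
  obtain ⟨t, ht, ht0, e4⟩ := h4 v P Q
  obtain ⟨u, rfl⟩ : ∃ u, t = φ * u := ⟨φ⁻¹ * t, by rw [mul_inv_cancel_left₀ hφ0]⟩
  have hu : u ∈ Lk N k' := (DLocal.mul_mem_iff k' hφ0 hP u).1 ht
  have hu0 : u ≠ 0 := right_ne_zero_of_mul ht0
  have hp' : 0 < ptn N v k' Q := ptn_pos hk'1 v Q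
  have hnu : 0 < nrm N v k' u := DLocal.nrm_pos v hu hu0
  have hD := DLocal.prod_dl_nonneg v P Q
  have hn := DLocal.nrm_nonneg (N := N) v k φ
  have hp := DLocal.ptn_nonneg (N := N) v k Q
  rw [ev_mul Q hφ hu, map_mul] at e4
  have e5 := h5 v φ hφ u hu
  have e6 := h6 v Q
  have e7 : absv v (ev N k' Q u) ≤ CF.ofNat (mk N k') v * (nrm N v k' u * ptn N v k' Q) :=
    U0_ev v k' Q hu
  have hA : 0 ≤ absv v (ev N k Q φ) := (absv v).nonneg _
  refine le_of_mul_le_mul_right ?_ (mul_pos hnu hp')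
  calc nrm N v k φ * ptn N v k Q * (∏ j, dl N v (P j) Q) * (nrm N v k' u * ptn N v k' Q)
      = (nrm N v k φ * nrm N v k' u) * (ptn N v k Q * ptn N v k' Q) * ∏ j, dl N v (P j) Q := by ring
    _ ≤ (c5 v * nrm N v (k + k') (φ * u)) * (c6 v * ptn N v (k + k') Q) *
          ∏ j, dl N v (P j) Q := by
        refine mul_le_mul_of_nonneg_right ?_ hD
        exact mul_le_mul e5 e6 (mul_nonneg hp hp'.le)
          (mul_nonneg (c5.pos v).le (DLocal.nrm_nonneg v _ _))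
    _ = c5 v * c6 v * (nrm N v (k + k') (φ * u) * ptn N v (k + k') Q * ∏ j, dl N v (P j) Q) := by
        ring
    _ ≤ c5 v * c6 v * (c4 v * (absv v (ev N k Q φ) * absv v (ev N k' Q u))) :=
        mul_le_mul_of_nonneg_left e4 (mul_nonneg (c5.pos v).le (c6.pos v).le)
    _ ≤ c5 v * c6 v * (c4 v * (absv v (ev N k Q φ) *
          (CF.ofNat (mk N k') v * (nrm N v k' u * ptn N v k' Q)))) := by
        refine mul_le_mul_of_nonneg_left ?_ (mul_nonneg (c5.pos v).le (c6.pos v).le)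
        refine mul_le_mul_of_nonneg_left ?_ (c4.pos v).le
        exact mul_le_mul_of_nonneg_left e7 hA
    _ = (c4 * c5 * c6 * CF.ofNat (mk N k')) v * absv v (ev N k Q φ) *
          (nrm N v k' u * ptn N v k' Q) := by
        simp only [CF.mul_apply]; ring

/-- **D2, Weil's decomposition theorem** (uniform in the section `φ`).
`φ L_{k'} = L((k+k')∞ - div0 φ)` with `k + k' = k μ₀ + k0`; D1, U0, U1. -/
theorem D2 {k : ℕ} (hk : rc Kb (FN N) + 1 ≤ k) : ∃ c : CF, ∀ v, ∀ φ ∈ Lk N k, φ ≠ 0 →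
    ∀ P : Fin k → Pl N, tdiv P = div0 N k φ → ∀ Q : Pl N,
      absv v (ev N k Q φ) ≤ c v * (nrm N v k φ * ptn N v k Q * ∏ j, dl N v (P j) Q) ∧
      nrm N v k φ * ptn N v k Q * ∏ j, dl N v (P j) Q ≤ c v * absv v (ev N k Q φ) := by
  obtain ⟨a, ha⟩ := DLocal.D2_le (N := N) hk
  obtain ⟨b, hb⟩ := DLocal.D2_ge (N := N) hk
  refine ⟨a * b, fun v φ hφ hφ0 P hP Q => ⟨?_, ?_⟩⟩
  · exact DLocal.le_mul_left b (mul_nonneg (mul_nonneg (DLocal.nrm_nonneg v k φ)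
      (DLocal.ptn_nonneg v k Q)) (DLocal.prod_dl_nonneg v P Q)) (ha v φ hφ hφ0 P hP Q)
  · exact DLocal.le_mul_right a ((absv v).nonneg _) (hb v φ hφ hφ0 P hP Q)

theorem DLocal.ev_one {k : ℕ} {Q : Pl N} (hQ : Q ≠ oo N) : ev N k Q 1 = 1 := by
  rw [ev, if_neg hQ, val_one]

theorem DLocal.tdiv_const (k : ℕ) : tdiv (fun _ : Fin k => oo N) = div0 N k 1 := by
  have h1 : divf (K := Kb) (1 : FN N) = 0 := by
    ext v
    simp
  rw [div0, h1, zero_add, tdiv, koo, Finset.sum_const, Finset.card_univ, Fintype.card_fin,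
    natCast_zsmul]

/-- D2 for `φ = 1`: `|Q|_{k,v} · dl_v(∞,Q)^k ≍ 1` for `Q ≠ ∞`. -/
theorem D2_one {k : ℕ} (hk : rc Kb (FN N) + 1 ≤ k) : ∃ c : CF, ∀ v, ∀ Q : Pl N, Q ≠ oo N →
      1 ≤ c v * (ptn N v k Q * dl N v (oo N) Q ^ k) ∧ ptn N v k Q * dl N v (oo N) Q ^ k ≤ c v := by
  obtain ⟨a, ha⟩ := D2 (N := N) hk
  have h1 : (1 : FN N) ∈ Lk N k := one_mem_Lk k
  obtain ⟨b, hb⟩ := DLocal.exists_CF_supn (t := crd N k (1 : FN N))
    (fun h => one_ne_zero ((crd_eq_zero_iff h1).1 h))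
  refine ⟨a * b, fun v Q hQ => ?_⟩
  obtain ⟨e1, e2⟩ := ha v 1 h1 one_ne_zero (fun _ => oo N) (DLocal.tdiv_const k) Q
  rw [DLocal.ev_one hQ, map_one, Finset.prod_const, Finset.card_univ, Fintype.card_fin] at e1 e2
  obtain ⟨b1, b2⟩ := hb v
  change nrm N v k 1 ≤ b v at b1
  change 1 ≤ b v * nrm N v k 1 at b2
  have hX : 0 ≤ ptn N v k Q * dl N v (oo N) Q ^ k :=
    mul_nonneg (DLocal.ptn_nonneg v k Q) (pow_nonneg (dl_nonneg v _ _) _)
  constructor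
  · calc (1 : ℝ) ≤ a v * (nrm N v k 1 * ptn N v k Q * dl N v (oo N) Q ^ k) := e1
      _ = a v * (nrm N v k 1 * (ptn N v k Q * dl N v (oo N) Q ^ k)) := by ring
      _ ≤ a v * (b v * (ptn N v k Q * dl N v (oo N) Q ^ k)) :=
          mul_le_mul_of_nonneg_left (mul_le_mul_of_nonneg_right b1 hX) (a.pos v).le
      _ = (a * b) v * (ptn N v k Q * dl N v (oo N) Q ^ k) := by
          rw [CF.mul_apply]; ring
  · calc ptn N v k Q * dl N v (oo N) Q ^ k
        = 1 * (ptn N v k Q * dl N v (oo N) Q ^ k) := (one_mul _).symm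
      _ ≤ (b v * nrm N v k 1) * (ptn N v k Q * dl N v (oo N) Q ^ k) :=
          mul_le_mul_of_nonneg_right b2 hX
      _ = b v * (nrm N v k 1 * ptn N v k Q * dl N v (oo N) Q ^ k) := by ring
      _ ≤ b v * (a v * 1) := mul_le_mul_of_nonneg_left e2 (b.pos v).le
      _ = (a * b) v := by rw [CF.mul_apply]; ring

/-- comparison of the levels -/
theorem ptn_pow_le {k k' : ℕ} (hk : rc Kb (FN N) + 1 ≤ k) (hk' : rc Kb (FN N) + 1 ≤ k') :
    ∃ c : CF, ∀ v, ∀ Q : Pl N, ptn N v k Q ^ k' ≤ c v * ptn N v k' Q ^ k := by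
  obtain ⟨a, ha⟩ := D2_one (N := N) hk
  obtain ⟨a', ha'⟩ := D2_one (N := N) hk'
  obtain ⟨b, hb⟩ := DLocal.exists_CF_supn (pt_ne_zero hk (oo N))
  obtain ⟨b', hb'⟩ := DLocal.exists_CF_supn (pt_ne_zero hk' (oo N))
  refine ⟨(a.npow k' * a'.npow k) * (b.npow k' * b'.npow k), fun v Q => ?_⟩
  have hY : 0 ≤ ptn N v k' Q ^ k := pow_nonneg (DLocal.ptn_nonneg v k' Q) _
  by_cases hQ : Q = oo N
  · subst hQ
    refine DLocal.le_mul_right _ hY ?_
    have b1 : ptn N v k (oo N) ≤ b v := (hb v).1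
    have b2 : 1 ≤ b' v * ptn N v k' (oo N) := (hb' v).2
    calc ptn N v k (oo N) ^ k' ≤ b v ^ k' := pow_le_pow_left₀ (DLocal.ptn_nonneg v k _) b1 _
      _ = b v ^ k' * 1 := (mul_one _).symm
      _ ≤ b v ^ k' * (b' v * ptn N v k' (oo N)) ^ k :=
          mul_le_mul_of_nonneg_left (one_le_pow₀ b2) (pow_nonneg (b.pos v).le _)
      _ = (b.npow k' * b'.npow k) v * ptn N v k' (oo N) ^ k := by
          rw [CF.mul_apply, mul_pow]
          change _ = b v ^ k' * b' v ^ k * _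
          ring
  · refine DLocal.le_mul_left _ hY ?_
    have e1 := (ha v Q hQ).2
    have e2 := (ha' v Q hQ).1
    have hd : 0 < dl N v (oo N) Q :=
      lt_of_le_of_ne (dl_nonneg v _ _) (fun h => hQ ((dl_eq_zero_iff v _ _).1 h.symm).symm)
    refine le_of_mul_le_mul_right ?_ (pow_pos hd (k * k'))
    calc ptn N v k Q ^ k' * dl N v (oo N) Q ^ (k * k')
        = (ptn N v k Q * dl N v (oo N) Q ^ k) ^ k' := by rw [mul_pow, ← pow_mul]
      _ ≤ a v ^ k' := pow_le_pow_left₀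
          (mul_nonneg (DLocal.ptn_nonneg v k Q) (pow_nonneg hd.le _)) e1 _
      _ = a v ^ k' * 1 := (mul_one _).symm
      _ ≤ a v ^ k' * (a' v * (ptn N v k' Q * dl N v (oo N) Q ^ k')) ^ k :=
          mul_le_mul_of_nonneg_left (one_le_pow₀ e2) (pow_nonneg (a.pos v).le _)
      _ = (a.npow k' * a'.npow k) v * ptn N v k' Q ^ k * dl N v (oo N) Q ^ (k * k') := by
          rw [CF.mul_apply, mul_pow, mul_pow, ← pow_mul, mul_comm k' k]
          change _ = a v ^ k' * a' v ^ k * _ * _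
          ring

/-- `|Q|_{k,v}` is bounded below -/
theorem one_le_ptn {k : ℕ} (hk : rc Kb (FN N) + 1 ≤ k) : ∃ c : CF, ∀ v, ∀ Q : Pl N, 1 ≤ c v * ptn N v k Q := by
  have h1 : (1 : FN N) ∈ Lk N k := one_mem_Lk k
  obtain ⟨a, ha⟩ := DLocal.exists_CF_supn (t := crd N k (1 : FN N))
    (fun h => one_ne_zero ((crd_eq_zero_iff h1).1 h))
  obtain ⟨b, hb⟩ := DLocal.exists_CF_supn (pt_ne_zero hk (oo N))
  refine ⟨(CF.ofNat (mk N k) * a) * b, fun v Q => ?_⟩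
  by_cases hQ : Q = oo N
  · subst hQ
    exact DLocal.le_mul_right _ (DLocal.ptn_nonneg v k _) (hb v).2
  · refine DLocal.le_mul_left _ (DLocal.ptn_nonneg v k _) ?_
    have e := U0_ev v k Q h1
    rw [DLocal.ev_one hQ, map_one] at e
    have a1 : nrm N v k 1 ≤ a v := (ha v).1
    calc (1 : ℝ) ≤ kap v (mk N k) * (nrm N v k 1 * ptn N v k Q) := e
      _ ≤ kap v (mk N k) * (a v * ptn N v k Q) := by
          refine mul_le_mul_of_nonneg_left ?_ ((CF.ofNat (mk N k)).pos v).le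
          exact mul_le_mul_of_nonneg_right a1 (DLocal.ptn_nonneg v k Q)
      _ = (CF.ofNat (mk N k) * a) v * ptn N v k Q := by
          rw [CF.mul_apply]
          change _ = kap v (mk N k) * a v * _
          ring

end Fermat.Agent.S17
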