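import Fermat.Agent.S17.D.Global

/-! # S17 / D4, D5 : the pairing on the Mordell-Weil group, quadraticity -/

set_option autoImplicit false
set_option linter.unusedSectionVars false

open AlgebraicCurve ModularCurve IntermediateField

namespace Fermat.Agent.S17

open FF

variable {N : ℕ} [NeZero N]

namespace Pairing

theorem cls_add {D E : Dv N} (hD : Divisor.degree D = 0) (hE : Divisor.degree E = 0)
    (h : Divisor.degree (D + E) = 0) : cls N (D + E) h = cls N D hD + cls N E hE := rfl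

theorem cls_neg {D : Dv N} (hD : Divisor.degree D = 0) (h : Divisor.degree (-D) = 0) :
    cls N (-D) h = - cls N D hD := rfl

theorem cls_zero (h : Divisor.degree (0 : Dv N) = 0) : cls N 0 h = 0 := rfl

theorem cls_congr {D E : Dv N} (h : D = E) (hD : Divisor.degree D = 0)
    (hE : Divisor.degree E = 0) : cls N D hD = cls N E hE := by
  subst h; rfl

theorem isRatD_add {D E : Dv N} (h₁ : IsRatD N D) (h₂ : IsRatD N E) : IsRatD N (D + E) :=
  fun σ => by rw [smul_add, h₁ σ, h₂ σ]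

theorem isRatD_sub {D E : Dv N} (h₁ : IsRatD N D) (h₂ : IsRatD N E) : IsRatD N (D - E) :=
  fun σ => by rw [smul_sub, h₁ σ, h₂ σ]

theorem isRatF_mul {f g : FN N} (h₁ : IsRatF N f) (h₂ : IsRatF N g) : IsRatF N (f * g) :=
  fun σ => by rw [smul_mul', h₁ σ, h₂ σ]

theorem rep_degree_eq {s : ℕ} {x : JZero N} {D₁ D₂ : Dv N} (h : Rep s x D₁ D₂) :
    Divisor.degree D₁ = Divisor.degree D₂ := by
  obtain ⟨-, -, -, -, -, h0, -⟩ := h
  rw [map_sub] at h0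
  omega

theorem rep_mono {s t : ℕ} (hst : s ≤ t) {x : JZero N} {D₁ D₂ : Dv N} (h : Rep s x D₁ D₂) :
    Rep t x D₁ D₂ := by
  obtain ⟨h1, h2, h3, h4, h5, h6⟩ := h
  exact ⟨h1, h2, h3, h4, h5.trans (by exact_mod_cast hst), h6⟩

theorem rep_swap {s : ℕ} {x : JZero N} {D₁ D₂ : Dv N} (h : Rep s x D₁ D₂) : Rep s (-x) D₂ D₁ := by
  have hd := rep_degree_eq h
  obtain ⟨h1, h2, h3, h4, h5, h6, h7⟩ := h
  refine ⟨h2, h1, h4, h3, hd ▸ h5, by rw [map_sub]; omega, ?_⟩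
  rw [← h7, ← cls_neg h6 (by rw [map_neg, h6, neg_zero])]
  exact cls_congr (by abel) _ _

theorem rep_add {s t : ℕ} {x y : JZero N} {D₁ D₂ E₁ E₂ : Dv N} (h : Rep s x D₁ D₂)
    (h' : Rep t y E₁ E₂) : Rep (s + t) (x + y) (D₁ + E₁) (D₂ + E₂) := by
  obtain ⟨h1, h2, h3, h4, h5, h6, h7⟩ := h
  obtain ⟨g1, g2, g3, g4, g5, g6, g7⟩ := h'
  refine ⟨add_nonneg h1 g1, add_nonneg h2 g2, isRatD_add h3 g3, isRatD_add h4 g4, ?_, ?_, ?_⟩
  · rw [map_add]; push_cast; omega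
  · rw [map_sub, map_add, map_add]
    rw [map_sub] at h6 g6
    omega
  · rw [← h7, ← g7, ← cls_add h6 g6 (by rw [map_add, h6, g6, add_zero])]
    exact cls_congr (by abel) _ _

theorem rep_sub {s t : ℕ} {x y : JZero N} {D₁ D₂ E₁ E₂ : Dv N} (h : Rep s x D₁ D₂)
    (h' : Rep t y E₁ E₂) : Rep (s + t) (x - y) (D₁ + E₂) (D₂ + E₁) := by
  rw [sub_eq_add_neg]
  exact rep_add h (rep_swap h')

theorem support_subset_add_left {D E : Dv N} (hD : 0 ≤ D) (hE : 0 ≤ E) :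
    D.support ⊆ (D + E).support := by
  intro P hP
  rw [Finsupp.mem_support_iff] at hP ⊢
  have h1 := hD P
  have h2 := hE P
  simp only [Finsupp.coe_zero, Pi.zero_apply] at h1 h2
  rw [Finsupp.add_apply]
  omega

theorem support_subset_add_right {D E : Dv N} (hD : 0 ≤ D) (hE : 0 ≤ E) :
    E.support ⊆ (D + E).support := by
  rw [add_comm]
  exact support_subset_add_left hE hD

theorem disj_cross {A₁ A₂ B₁ B₂ : Dv N} {T : Finset (Pl N)} (h1 : Disjoint (A₁ + A₂).support T)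
    (h2 : Disjoint (B₁ + B₂).support T) : Disjoint ((A₁ + B₂) + (A₂ + B₁)).support T := by
  classical
  have e : (A₁ + B₂) + (A₂ + B₁) = (A₁ + A₂) + (B₁ + B₂) := by abel
  rw [e]
  exact Finset.disjoint_of_subset_left Finsupp.support_add (Finset.disjoint_union_left.mpr ⟨h1, h2⟩)

theorem disj_par {A₁ A₂ B₁ B₂ : Dv N} {T : Finset (Pl N)} (h1 : Disjoint (A₁ + A₂).support T)
    (h2 : Disjoint (B₁ + B₂).support T) : Disjoint ((A₁ + B₁) + (A₂ + B₂)).support T := by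
  classical
  have e : (A₁ + B₁) + (A₂ + B₂) = (A₁ + A₂) + (B₁ + B₂) := by abel
  rw [e]
  exact Finset.disjoint_of_subset_left Finsupp.support_add (Finset.disjoint_union_left.mpr ⟨h1, h2⟩)

end Pairing

open Pairing

/-- **D4.** principal · degree zero `= O(1)`. -/
theorem D4 (s : ℕ) : ∃ C : ℝ, ∀ D₁ D₂ D₁' D₂' : Dv N, Rep s 0 D₁ D₂ →
    0 ≤ D₁' → 0 ≤ D₂' → IsRatD N D₁' → IsRatD N D₂' → Divisor.degree D₁' = Divisor.degree D₂' →
    Divisor.degree D₁' ≤ s → Disjoint (D₁ + D₂).support (D₁' + D₂').support →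
      |gpair N (D₁ - D₂) (D₁' - D₂')| ≤ C := by
  classical
  set k : ℕ := s + (rc Kb (FN N)).toNat + 1 with hkdef
  have hk' : rc Kb (FN N) + 1 + s ≤ k := by
    have := Int.self_le_toNat (rc Kb (FN N))
    rw [hkdef]; push_cast; omega
  have hk : rc Kb (FN N) + 1 ≤ k := by omega
  obtain ⟨C, hC⟩ := D3 (N := N) hk s
  refine ⟨4 * C, ?_⟩
  intro D₁ D₂ D₁' D₂' hrep h1' h2' hr1' hr2' hdeg hs hdisj
  have hdeq := rep_degree_eq hrep
  obtain ⟨h1, h2, hr1, hr2, hd1, h0, hcls⟩ := hrep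
  have hprin : Divisor.IsPrincipal (D₁ - D₂) := by
    have e : cls N (D₁ - D₂) h0 = cls N 0 (map_zero _) := hcls
    have := (cls_eq_cls_iff h0 (map_zero _)).mp e
    rwa [LinEq, sub_zero] at this
  obtain ⟨f, hf0, hfrat, hfdiv⟩ := exists_rat_of_isPrincipal (isRatD_sub hr1 hr2) hprin
  have hratA : IsRatD N (koo N k - D₂) := isRatD_sub (koo_isRat N k) hr2
  have hdegA : rc Kb (FN N) + 1 ≤ Divisor.degree (koo N k - D₂) := by
    rw [map_sub, degree_koo]; omega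
  obtain ⟨φ₂, hφ₂mem, hφ₂0, hφ₂rat, hφ₂ord⟩ :=
    exists_rat_mem_LSp_ord_eq hratA hdegA (D₁' + D₂').support
  set B : Dv N := divf φ₂ + (koo N k - D₂) with hB
  have hB0 : 0 ≤ B := (mem_LSp_iff_divf hφ₂0).mp hφ₂mem
  have hBT : ∀ P ∈ (D₁' + D₂').support, B P = 0 := by
    intro P hP
    rw [hB, Finsupp.add_apply, divf_apply, hφ₂ord P hP]
    omega
  have hdiv2 : div0 N k φ₂ = D₂ + B := by
    rw [div0, hB]; abel
  have hφ₁0 : f * φ₂ ≠ 0 := mul_ne_zero hf0 hφ₂0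
  have hdiv1 : div0 N k (f * φ₂) = D₁ + B := by
    rw [div0, divf_mul hf0 hφ₂0, ← hfdiv, hB]; abel
  have hφ₁mem : f * φ₂ ∈ Lk N k := by
    rw [Lk, mem_LSp_iff_divf hφ₁0]
    have : divf (f * φ₂) + koo N k = D₁ + B := hdiv1
    rw [this]
    exact add_nonneg h1 hB0
  have hφ₂mem' : φ₂ ∈ Lk N k := by
    rw [Lk, mem_LSp_iff_divf hφ₂0]
    have : divf φ₂ + koo N k = D₂ + B := hdiv2
    rw [this]
    exact add_nonneg h2 hB0
  have hφ₁rat : IsRatF N (f * φ₂) := isRatF_mul hfrat hφ₂rat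
  -- disjointness
  have hdj : ∀ D E : Dv N, D.support ⊆ (D₁ + D₂).support → E.support ⊆ (D₁' + D₂').support →
      Disjoint (D + B).support E.support := by
    intro D E hD hE
    rw [Finset.disjoint_left]
    intro P hP hPE
    have hPT := hE hPE
    have hBP := hBT P hPT
    have hPD : P ∉ D.support := fun h => (Finset.disjoint_left.mp hdisj) (hD h) hPT
    rw [Finsupp.mem_support_iff, Finsupp.add_apply, hBP, add_zero] at hP
    exact hPD (Finsupp.mem_support_iff.mpr hP)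
  have i1 := support_subset_add_left h1 h2
  have i2 := support_subset_add_right h1 h2
  have j1 := support_subset_add_left h1' h2'
  have j2 := support_subset_add_right h1' h2'
  have a11 := hC _ hφ₁mem hφ₁0 hφ₁rat D₁' h1' hr1' hs (hdiv1 ▸ hdj D₁ D₁' i1 j1)
  have a12 := hC _ hφ₁mem hφ₁0 hφ₁rat D₂' h2' hr2' (hdeg ▸ hs) (hdiv1 ▸ hdj D₁ D₂' i1 j2)
  have a21 := hC _ hφ₂mem' hφ₂0 hφ₂rat D₁' h1' hr1' hs (hdiv2 ▸ hdj D₂ D₁' i2 j1)
  have a22 := hC _ hφ₂mem' hφ₂0 hφ₂rat D₂' h2' hr2' (hdeg ▸ hs) (hdiv2 ▸ hdj D₂ D₂' i2 j2)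
  have e : D₁ - D₂ = div0 N k (f * φ₂) - div0 N k φ₂ := by
    rw [hdiv1, hdiv2]; abel
  rw [e, gpair_sub_left, gpair_sub_right, gpair_sub_right]
  rw [← hdeg] at a12 a22
  rw [abs_le] at a11 a12 a21 a22 ⊢
  constructor <;> linarith [a11.1, a11.2, a12.1, a12.2, a21.1, a21.2, a22.1, a22.2]

/-- **D5 (well-definedness).** -/
theorem D5 (s : ℕ) : ∃ C : ℝ, ∀ (x y : JZero N), x ∈ MW N → y ∈ MW N →
    ∀ D₁ D₂ D₁' D₂' E₁ E₂ E₁' E₂' : Dv N,
    Rep s x D₁ D₂ → Rep s y D₁' D₂' → Disjoint (D₁ + D₂).support (D₁' + D₂').support →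
    Rep s x E₁ E₂ → Rep s y E₁' E₂' → Disjoint (E₁ + E₂).support (E₁' + E₂').support →
      |gpair N (D₁ - D₂) (D₁' - D₂') - gpair N (E₁ - E₂) (E₁' - E₂')| ≤ C := by
  classical
  obtain ⟨C, hC⟩ := D4 (N := N) (2 * s + n0 N)
  refine ⟨3 * C, ?_⟩
  intro x y hx hy D₁ D₂ D₁' D₂' E₁ E₂ E₁' E₂' hD hD' hdD hE hE' hdE
  obtain ⟨F₁, F₂, hF, hdF⟩ := exists_rep hy ((D₁ + D₂).support ∪ (E₁ + E₂).support)
  rw [Finset.disjoint_union_right] at hdF
  have le1 : (s : ℤ) ≤ (2 * s + n0 N : ℕ) := by push_cast; omega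
  have le2 : (n0 N : ℤ) ≤ (2 * s + n0 N : ℕ) := by push_cast; omega
  have s1 : |gpair N ((D₁' + F₂) - (D₂' + F₁)) (D₁ - D₂)| ≤ C :=
    hC _ _ _ _ (rep_mono (by omega) (sub_self y ▸ rep_sub hD' hF)) hD.1 hD.2.1 hD.2.2.1 hD.2.2.2.1
      (rep_degree_eq hD) (hD.2.2.2.2.1.trans le1) (disj_cross hdD.symm hdF.1)
  have s2 : |gpair N ((D₁ + E₂) - (D₂ + E₁)) (F₁ - F₂)| ≤ C :=
    hC _ _ _ _ (rep_mono (by omega) (sub_self x ▸ rep_sub hD hE)) hF.1 hF.2.1 hF.2.2.1 hF.2.2.2.1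
      (rep_degree_eq hF) (hF.2.2.2.2.1.trans le2) (disj_cross hdF.1.symm hdF.2.symm)
  have s3 : |gpair N ((F₁ + E₂') - (F₂ + E₁')) (E₁ - E₂)| ≤ C :=
    hC _ _ _ _ (rep_mono (by omega) (sub_self y ▸ rep_sub hF hE')) hE.1 hE.2.1 hE.2.2.1 hE.2.2.2.1
      (rep_degree_eq hE) (hE.2.2.2.2.1.trans le1) (disj_cross hdF.2 hdE.symm)
  rw [gpair_comm] at s1 s3
  have key : gpair N (D₁ - D₂) (D₁' - D₂') - gpair N (E₁ - E₂) (E₁' - E₂') =
      gpair N (D₁ - D₂) ((D₁' + F₂) - (D₂' + F₁)) + gpair N ((D₁ + E₂) - (D₂ + E₁)) (F₁ - F₂) +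
        gpair N (E₁ - E₂) ((F₁ + E₂') - (F₂ + E₁')) := by
    simp only [gpair_sub_left, gpair_sub_right, gpair_add_left, gpair_add_right]
    ring
  rw [key]
  rw [abs_le] at s1 s2 s3 ⊢
  constructor <;> linarith [s1.1, s1.2, s2.1, s2.2, s3.1, s3.2]

/-- existence of a disjoint pair of representatives of `x` -/
theorem exists_rep_pair (x : MW N) : ∃ D : (Dv N × Dv N) × (Dv N × Dv N),
    Rep (n0 N) (x : JZero N) D.1.1 D.1.2 ∧ Rep (n0 N) (x : JZero N) D.2.1 D.2.2 ∧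
      Disjoint (D.1.1 + D.1.2).support (D.2.1 + D.2.2).support := by
  obtain ⟨D₁, D₂, hD, -⟩ := exists_rep x.2 ∅
  obtain ⟨E₁, E₂, hE, hdE⟩ := exists_rep x.2 (D₁ + D₂).support
  exact ⟨((D₁, D₂), (E₁, E₂)), hD, hE, hdE.symm⟩

/-- the (uncorrected) height `q(x) = - <x, x>` -/
noncomputable def qh (x : MW N) : ℝ :=
  - gpair N ((exists_rep_pair x).choose.1.1 - (exists_rep_pair x).choose.1.2)
      ((exists_rep_pair x).choose.2.1 - (exists_rep_pair x).choose.2.2)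

/-- `q` may be computed with any disjoint pair of representatives of bounded size -/
theorem qh_eq (s : ℕ) : ∃ C : ℝ, ∀ (x : MW N) (D₁ D₂ D₁' D₂' : Dv N), Rep s (x : JZero N) D₁ D₂ →
    Rep s (x : JZero N) D₁' D₂' → Disjoint (D₁ + D₂).support (D₁' + D₂').support →
      |qh x + gpair N (D₁ - D₂) (D₁' - D₂')| ≤ C := by
  obtain ⟨C, hC⟩ := D5 (N := N) (max s (n0 N))
  refine ⟨C, fun x D₁ D₂ D₁' D₂' hD hD' hdisj => ?_⟩
  obtain ⟨h1, h2, h3⟩ := (exists_rep_pair x).choose_spec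
  have := hC x x x.2 x.2 D₁ D₂ D₁' D₂' _ _ _ _ (rep_mono (le_max_left _ _) hD)
    (rep_mono (le_max_left _ _) hD') hdisj (rep_mono (le_max_right _ _) h1)
    (rep_mono (le_max_right _ _) h2) h3
  rw [qh, neg_add_eq_sub]
  exact this

/-- **parallelogram law** (bilinearity of `gpair` + `qh_eq` with `s = 2 n0`). -/
theorem qh_parallelogram : ∃ C : ℝ, ∀ x y : MW N, |qh (x + y) + qh (x - y) - 2 * (qh x + qh y)| ≤ C := by
  classical
  obtain ⟨C, hC⟩ := qh_eq (N := N) (n0 N + n0 N)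
  refine ⟨6 * C, fun x y => ?_⟩
  obtain ⟨A₁, A₂, hA, -⟩ := exists_rep x.2 ∅
  obtain ⟨B₁, B₂, hB, -⟩ := exists_rep y.2 ∅
  obtain ⟨A₁', A₂', hA', hdA⟩ := exists_rep x.2 ((A₁ + A₂).support ∪ (B₁ + B₂).support)
  obtain ⟨B₁', B₂', hB', hdB⟩ := exists_rep y.2 ((A₁ + A₂).support ∪ (B₁ + B₂).support)
  rw [Finset.disjoint_union_right] at hdA hdB
  have hle : n0 N ≤ n0 N + n0 N := Nat.le_add_right _ _
  have q1 := hC (x + y) _ _ _ _ (rep_add hA hB) (rep_add hA' hB')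
    (disj_par (disj_par hdA.1 hdB.1).symm (disj_par hdA.2 hdB.2).symm)
  have q2 := hC (x - y) _ _ _ _ (rep_sub hA hB) (rep_sub hA' hB')
    (disj_cross (disj_cross hdA.1 hdB.1).symm (disj_cross hdA.2 hdB.2).symm)
  have q3 := hC x _ _ _ _ (rep_mono hle hA) (rep_mono hle hA') hdA.1.symm
  have q4 := hC y _ _ _ _ (rep_mono hle hB) (rep_mono hle hB') hdB.2.symm
  simp only [gpair_sub_left, gpair_sub_right, gpair_add_left, gpair_add_right] at q1 q2 q3 q4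
  rw [abs_le] at q1 q2 q3 q4 ⊢
  constructor <;> linarith [q1.1, q1.2, q2.1, q2.2, q3.1, q3.2, q4.1, q4.2]

end Fermat.Agent.S17
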